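import Mathlib

/-!
# Row LT, tower T1 (pre-leaf T1.AUT, helper930): the adelic isomorphism of a field isomorphism

OFF-MAIN.  Mathlib only.  No `sorry`, nothing assumed.

For an isomorphism `e : K ≃+* L` of number fields (in particular an automorphism `σ` of `K`) we
construct the induced isomorphism of adele rings

  `adeleEquiv930 e : AdeleRing (𝓞 K) K ≃+* AdeleRing (𝓞 L) L`,

continuous in both directions, which is `e` on the principal adeles and is functorial in `e`.
It is the product over the places `w` of `L` of the completion maps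
`K_{e⁻¹ w} → L_w` (`infMapHom930` at the infinite places, an isometry; `finMapEquiv930` at the
finite places, valuation preserving, so integers go to integers).

Main declarations (all in namespace `Fermat.Agent.LT.T1.H930`):

* `infPull930 e w`, `finPull930 e w` : the place of `K` below the place `w` of `L`.
* `infMapHom930 e w`, `isometry_infMapHom930`, `infMapHom930_coe`.
* `finMapEquiv930 e w`, `valued_finMapEquiv930`, `finMapEquiv930_mem_integers`,
  `finMapEquiv930_coe`, `continuous_finMapEquiv930`.
* `infAdeleEquiv930 e`, `finAdeleEquiv930 e`, `adeleEquiv930 e`, with `_apply`, `_algebraMap`,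
  `continuous_…`, `…_symm`, `…_refl`, `…_trans` lemmas, and `adeleHomeo930 e`.
* `adeleAutHom930 : RingAut K →* RingAut (AdeleRing (𝓞 K) K)`.
-/

set_option autoImplicit false

open IsDedekindDomain NumberField InfinitePlace Valuation MonoidWithZeroHom WithZero

noncomputable section

namespace Fermat.Agent.LT.T1.H930

/-! ## Infinite places -/

section infinite

variable {K L : Type*} [Field K] [Field L]

/-- The place of `K` below `w` along the isomorphism `e : K ≃+* L`. -/
def infPull930 (e : K ≃+* L) (w : InfinitePlace L) : InfinitePlace K :=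
  w.comap (e : K →+* L)

theorem infPull930_apply (e : K ≃+* L) (w : InfinitePlace L) (x : K) :
    infPull930 e w x = w (e x) := rfl

/-- `e` as a ring isomorphism of the normed fields `(K, |·|_{e⁻¹w}) → (L, |·|_w)`. -/
def withAbsEquiv930 (e : K ≃+* L) (w : InfinitePlace L) :
    WithAbs (infPull930 e w).1 ≃+* WithAbs w.1 :=
  WithAbs.congr (infPull930 e w).1 w.1 e

theorem withAbsEquiv930_apply (e : K ≃+* L) (w : InfinitePlace L)
    (x : WithAbs (infPull930 e w).1) :
    withAbsEquiv930 e w x = WithAbs.toAbs w.1 (e x.ofAbs) := rfl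

theorem norm_withAbsEquiv930 (e : K ≃+* L) (w : InfinitePlace L)
    (x : WithAbs (infPull930 e w).1) : ‖withAbsEquiv930 e w x‖ = ‖x‖ := by
  rw [WithAbs.norm_eq_apply_ofAbs, WithAbs.norm_eq_apply_ofAbs]
  rfl

theorem isometry_withAbsEquiv930 (e : K ≃+* L) (w : InfinitePlace L) :
    Isometry (withAbsEquiv930 e w).toRingHom :=
  AddMonoidHomClass.isometry_of_norm _ (norm_withAbsEquiv930 e w)

/-- The completion map `K_{e⁻¹ w} →+* L_w` induced by `e`. -/
def infMapHom930 (e : K ≃+* L) (w : InfinitePlace L) :
    (infPull930 e w).Completion →+* w.Completion :=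
  ((Completion.equiv w).symm.toRingHom.comp (isometry_withAbsEquiv930 e w).mapRingHom).comp
    (Completion.equiv (infPull930 e w)).toRingHom

theorem infMapHom930_coe (e : K ≃+* L) (w : InfinitePlace L) (x : K) :
    infMapHom930 e w (x : (infPull930 e w).Completion) = ((e x : L) : w.Completion) := by
  apply Completion.ext
  exact (isometry_withAbsEquiv930 e w).mapRingHom_coe (WithAbs.toAbs _ x)

theorem isometry_infMapHom930 (e : K ≃+* L) (w : InfinitePlace L) :
    Isometry (infMapHom930 e w) := by
  refine Isometry.of_dist_eq fun x y => ?_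
  exact (isometry_withAbsEquiv930 e w).isometry_mapRingHom.dist_eq x.toCompletion y.toCompletion

theorem continuous_infMapHom930 (e : K ≃+* L) (w : InfinitePlace L) :
    Continuous (infMapHom930 e w) := (isometry_infMapHom930 e w).continuous


/-- The map of infinite adele rings induced by `e : K ≃+* L`. -/
def infAdeleHom930 (e : K ≃+* L) : InfiniteAdeleRing K →+* InfiniteAdeleRing L :=
  RingHom.pi fun w => (infMapHom930 e w).comp (Pi.evalRingHom _ (infPull930 e w))

theorem infAdeleHom930_apply (e : K ≃+* L) (a : InfiniteAdeleRing K) (w : InfinitePlace L) :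
    infAdeleHom930 e a w = infMapHom930 e w (a (infPull930 e w)) := rfl

theorem continuous_infAdeleHom930 (e : K ≃+* L) : Continuous (infAdeleHom930 e) :=
  continuous_pi fun w => (continuous_infMapHom930 e w).comp (continuous_apply (infPull930 e w))

theorem infAdeleHom930_algebraMap (e : K ≃+* L) (k : K) :
    infAdeleHom930 e (algebraMap K (InfiniteAdeleRing K) k)
      = algebraMap L (InfiniteAdeleRing L) (e k) := by
  funext w
  rw [infAdeleHom930_apply]
  exact infMapHom930_coe e w k

theorem infPull930_symm (e : K ≃+* L) (v : InfinitePlace K) :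
    infPull930 e (infPull930 e.symm v) = v := by
  refine InfinitePlace.ext _ _ fun x => ?_
  rw [infPull930_apply, infPull930_apply, RingEquiv.symm_apply_apply]

/-- Two continuous ring homomorphisms out of `K_{v'}` and `K_v`, `v' = v`, which agree on `K`,
agree on the components of an infinite adele. -/
theorem infAdele_apply_eq930 {M : Type*} [TopologicalSpace M] [T2Space M] [Semiring M]
    (v' v : InfinitePlace K) (h : v' = v)
    (ψ₁ : v'.Completion →+* M) (ψ₂ : v.Completion →+* M) (h₁ : Continuous ψ₁)
    (h₂ : Continuous ψ₂)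
    (hk : ∀ k : K, ψ₁ (k : v'.Completion) = ψ₂ (k : v.Completion))
    (a : InfiniteAdeleRing K) : ψ₁ (a v') = ψ₂ (a v) := by
  subst h
  have hcl : IsClosed {x : v'.Completion | ψ₁ x = ψ₂ x} := isClosed_eq h₁ h₂
  exact Completion.induction_on v' (p := fun x => ψ₁ x = ψ₂ x) (a v') hcl fun x => hk x.ofAbs

/-- A continuous ring homomorphism `K_{v'} → K_v` which is the identity on `K` is the identity
(transported along `v' = v`), evaluated on an infinite adele. -/
theorem infAdele_apply_eq_of_id930 (v' v : InfinitePlace K) (h : v' = v)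
    (ψ : v'.Completion →+* v.Completion) (hψ : Continuous ψ)
    (hk : ∀ k : K, ψ (k : v'.Completion) = (k : v.Completion))
    (a : InfiniteAdeleRing K) : ψ (a v') = a v :=
  infAdele_apply_eq930 v' v h ψ (RingHom.id _) hψ continuous_id hk a

theorem infAdeleHom930_symm_apply (e : K ≃+* L) (a : InfiniteAdeleRing K) :
    infAdeleHom930 e.symm (infAdeleHom930 e a) = a := by
  funext v
  rw [infAdeleHom930_apply, infAdeleHom930_apply]
  refine infAdele_apply_eq_of_id930 (infPull930 e (infPull930 e.symm v)) v (infPull930_symm e v)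
    ((infMapHom930 e.symm v).comp (infMapHom930 e (infPull930 e.symm v)))
    ((continuous_infMapHom930 e.symm v).comp (continuous_infMapHom930 e _)) ?_ a
  intro k
  show infMapHom930 e.symm v (infMapHom930 e (infPull930 e.symm v) _) = _
  rw [infMapHom930_coe, infMapHom930_coe, RingEquiv.symm_apply_apply]

/-- The isomorphism of infinite adele rings induced by `e : K ≃+* L`. -/
def infAdeleEquiv930 (e : K ≃+* L) : InfiniteAdeleRing K ≃+* InfiniteAdeleRing L :=
  RingEquiv.ofRingHom (infAdeleHom930 e) (infAdeleHom930 e.symm)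
    (RingHom.ext fun b => infAdeleHom930_symm_apply e.symm b)
    (RingHom.ext fun a => infAdeleHom930_symm_apply e a)

end infinite

/-! ## Finite places -/

section general

variable {K L Γ₀ : Type*} [Field K] [Field L] [LinearOrderedCommGroupWithZero Γ₀]

theorem uniformContinuous_congr930 (v : Valuation K Γ₀) (w : Valuation L Γ₀) (f : K ≃+* L)
    (h : ∀ x, w (f x) = v x) : UniformContinuous (WithVal.congr v w f) := by
  refine uniformContinuous_of_continuousAt_zero _ ?_
  simp_rw [ContinuousAt, map_zero, (Valued.hasBasis_nhds_zero _ _).tendsto_iff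
    (Valued.hasBasis_nhds_zero _ _), true_and, forall_const]
  intro γ
  obtain ⟨r, s, hr₀, hs₀, hr⟩ := restrict_exists_div_eq (Valued.v : Valuation (WithVal w) Γ₀) γ
  -- pull `r`, `s` back to `WithVal v`
  set r' : WithVal v := (WithVal.congr v w f).symm r with hr'
  set s' : WithVal v := (WithVal.congr v w f).symm s with hs'
  have hval : ∀ x : WithVal v, (Valued.v : Valuation (WithVal w) Γ₀) (WithVal.congr v w f x)
      = (Valued.v : Valuation (WithVal v) Γ₀) x := fun x => h x.ofVal
  have hr1 : (Valued.v : Valuation (WithVal v) Γ₀) r' = Valued.v r := by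
    rw [← hval, hr', RingEquiv.apply_symm_apply]
  have hs1 : (Valued.v : Valuation (WithVal v) Γ₀) s' = Valued.v s := by
    rw [← hval, hs', RingEquiv.apply_symm_apply]
  have hr0' : (Valued.v : Valuation (WithVal v) Γ₀).restrict r' ≠ 0 := by
    intro h0
    have := congrArg ValueGroup₀.embedding h0
    rw [embedding_restrict, map_zero, hr1] at this
    exact hr₀.ne' this
  have hs0' : (Valued.v : Valuation (WithVal v) Γ₀).restrict s' ≠ 0 := by
    intro h0
    have := congrArg ValueGroup₀.embedding h0
    rw [embedding_restrict, map_zero, hs1] at this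
    exact hs₀.ne' this
  refine ⟨Units.mk0 ((Valued.v : Valuation (WithVal v) Γ₀).restrict r' /
    (Valued.v : Valuation (WithVal v) Γ₀).restrict s') (div_ne_zero hr0' hs0'), ?_⟩
  intro x hx
  simp only [Units.val_mk0, Set.mem_ofPred_eq] at hx ⊢
  rw [restrict_lt_iff_lt_embedding, map_div₀, embedding_restrict, embedding_restrict] at hx
  rw [← hr, restrict_lt_iff_lt_embedding, map_div₀, embedding_restrict, embedding_restrict,
    hval, ← hr1, ← hs1]
  exact hx

end general

section dedekind

variable {R S : Type*} [CommRing R] [CommRing S] [IsDedekindDomain R] [IsDedekindDomain S]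

/-- The prime of `R` below `w` along the isomorphism `e : R ≃+* S`. -/
def primePull930 (e : R ≃+* S) (w : HeightOneSpectrum S) : HeightOneSpectrum R :=
  HeightOneSpectrum.comap (e : R →+* S) e.surjective w

omit [IsDedekindDomain R] [IsDedekindDomain S] in
theorem primePull930_asIdeal (e : R ≃+* S) (w : HeightOneSpectrum S) :
    (primePull930 e w).asIdeal = w.asIdeal.comap (e : R →+* S) := rfl

omit [IsDedekindDomain R] [IsDedekindDomain S] in
theorem mem_primePull930_pow (e : R ≃+* S) (w : HeightOneSpectrum S) (n : ℕ) (r : R) :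
    r ∈ (primePull930 e w).asIdeal ^ n ↔ e r ∈ w.asIdeal ^ n := by
  have h1 : (primePull930 e w).asIdeal = w.asIdeal.map (e.symm : S →+* R) := by
    rw [primePull930_asIdeal]
    exact (Ideal.map_symm (I := w.asIdeal) (f := e)).symm
  have h2 : (w.asIdeal ^ n).map (e.symm : S →+* R) = (w.asIdeal ^ n).comap (e : R →+* S) :=
    Ideal.map_symm (I := w.asIdeal ^ n) (f := e)
  rw [h1, ← Ideal.map_pow, h2, Ideal.mem_comap]
  rfl

theorem intValuation_primePull930 (e : R ≃+* S) (w : HeightOneSpectrum S) (r : R) :
    (primePull930 e w).intValuation r = w.intValuation (e r) := by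
  by_cases hr : r = 0
  · simp [hr]
  have her : e r ≠ 0 := fun h => hr (by simpa using h)
  have key : ∀ n : ℕ, (primePull930 e w).intValuation r ≤ WithZero.exp (-(n : ℤ)) ↔
      w.intValuation (e r) ≤ WithZero.exp (-(n : ℤ)) := fun n => by
    rw [HeightOneSpectrum.intValuation_le_pow_iff_mem, HeightOneSpectrum.intValuation_le_pow_iff_mem,
      mem_primePull930_pow]
  rw [HeightOneSpectrum.intValuation_if_neg _ hr, HeightOneSpectrum.intValuation_if_neg _ her]
    at key ⊢
  exact le_antisymm ((key _).2 le_rfl) ((key _).1 le_rfl)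

variable {K L : Type*} [Field K] [Field L] [Algebra R K] [IsFractionRing R K] [Algebra S L]
  [IsFractionRing S L]

theorem valuation_primePull930 (e : R ≃+* S) (f : K ≃+* L)
    (hf : ∀ r : R, f (algebraMap R K r) = algebraMap S L (e r)) (w : HeightOneSpectrum S)
    (x : K) : w.valuation L (f x) = (primePull930 e w).valuation K x := by
  obtain ⟨a, b, hb, rfl⟩ := IsFractionRing.div_surjective (A := R) x
  rw [map_div₀, hf, hf, map_div₀, map_div₀, HeightOneSpectrum.valuation_of_algebraMap,
    HeightOneSpectrum.valuation_of_algebraMap, HeightOneSpectrum.valuation_of_algebraMap,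
    HeightOneSpectrum.valuation_of_algebraMap, intValuation_primePull930,
    intValuation_primePull930]

end dedekind

section numberfield

variable {K L : Type*} [Field K] [Field L] [NumberField K] [NumberField L]

/-- The finite place of `K` below `w` along the isomorphism `e : K ≃+* L`. -/
def finPull930 (e : K ≃+* L) (w : HeightOneSpectrum (𝓞 L)) : HeightOneSpectrum (𝓞 K) :=
  primePull930 (RingOfIntegers.mapRingEquiv e) w

theorem valuation_finPull930 (e : K ≃+* L) (w : HeightOneSpectrum (𝓞 L)) (x : K) :
    w.valuation L (e x) = (finPull930 e w).valuation K x :=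
  valuation_primePull930 (RingOfIntegers.mapRingEquiv e) e (fun _ => rfl) w x

/-- `e` as an isomorphism of the valued fields `(K, v_{e⁻¹ w}) → (L, v_w)`. -/
def withValEquiv930 (e : K ≃+* L) (w : HeightOneSpectrum (𝓞 L)) :
    WithVal ((finPull930 e w).valuation K) ≃+* WithVal (w.valuation L) :=
  WithVal.congr _ _ e

theorem uniformContinuous_withValEquiv930 (e : K ≃+* L) (w : HeightOneSpectrum (𝓞 L)) :
    UniformContinuous (withValEquiv930 e w) :=
  uniformContinuous_congr930 _ _ e (valuation_finPull930 e w)

theorem uniformContinuous_withValEquiv930_symm (e : K ≃+* L) (w : HeightOneSpectrum (𝓞 L)) :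
    UniformContinuous (withValEquiv930 e w).symm :=
  uniformContinuous_congr930 _ _ e.symm fun y => by
    rw [← valuation_finPull930 e w, RingEquiv.apply_symm_apply]

/-- The completion isomorphism `K_{e⁻¹ w} ≃+* L_w` induced by `e`. -/
def finMapEquiv930 (e : K ≃+* L) (w : HeightOneSpectrum (𝓞 L)) :
    (finPull930 e w).adicCompletion K ≃+* w.adicCompletion L :=
  (HeightOneSpectrum.adicCompletion.equiv K (finPull930 e w)).trans
    ((UniformSpace.Completion.mapRingEquiv (withValEquiv930 e w)
      (uniformContinuous_withValEquiv930 e w).continuous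
      (uniformContinuous_withValEquiv930_symm e w).continuous).trans
      (HeightOneSpectrum.adicCompletion.equiv L w).symm)

theorem finMapEquiv930_coe (e : K ≃+* L) (w : HeightOneSpectrum (𝓞 L)) (x : K) :
    finMapEquiv930 e w (x : (finPull930 e w).adicCompletion K) = ((e x : L) : w.adicCompletion L) := by
  apply HeightOneSpectrum.adicCompletion.ext
  exact UniformSpace.Completion.mapRingHom_coe
    (uniformContinuous_withValEquiv930 e w).continuous (WithVal.toVal _ x)

theorem continuous_finMapEquiv930 (e : K ≃+* L) (w : HeightOneSpectrum (𝓞 L)) :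
    Continuous (finMapEquiv930 e w) :=
  (HeightOneSpectrum.adicCompletion.continuous_ofCompletion L w).comp
    (UniformSpace.Completion.continuous_map.comp
      (HeightOneSpectrum.adicCompletion.continuous_toCompletion K (finPull930 e w)))


open scoped WithZeroTopology in
theorem valued_finMapEquiv930 (e : K ≃+* L) (w : HeightOneSpectrum (𝓞 L))
    (x : (finPull930 e w).adicCompletion K) :
    Valued.v (finMapEquiv930 e w x) = Valued.v x := by
  have hc1 : Continuous (Valued.v : w.adicCompletion L → ℤᵐ⁰) :=
    Valued.continuous_valuation_of_surjective (HeightOneSpectrum.valuedAdicCompletion_surjective L w)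
  have hc2 : Continuous (Valued.v : (finPull930 e w).adicCompletion K → ℤᵐ⁰) :=
    Valued.continuous_valuation_of_surjective
      (HeightOneSpectrum.valuedAdicCompletion_surjective K (finPull930 e w))
  have hcl : IsClosed {x : (finPull930 e w).adicCompletion K |
      Valued.v (finMapEquiv930 e w x) = Valued.v x} :=
    isClosed_eq (hc1.comp (continuous_finMapEquiv930 e w)) hc2
  have hd : DenseRange (algebraMap K ((finPull930 e w).adicCompletion K)) :=
    HeightOneSpectrum.denseRange_algebraMap K (finPull930 e w)
  refine hd.induction_on (p := fun x => Valued.v (finMapEquiv930 e w x) = Valued.v x) x hcl ?_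
  intro k
  have h1 : algebraMap K ((finPull930 e w).adicCompletion K) k
      = (k : (finPull930 e w).adicCompletion K) := rfl
  rw [h1, finMapEquiv930_coe, HeightOneSpectrum.adicCompletion.valued_coe,
    HeightOneSpectrum.adicCompletion.valued_coe, valuation_finPull930]

theorem finMapEquiv930_mem_integers (e : K ≃+* L) (w : HeightOneSpectrum (𝓞 L))
    (x : (finPull930 e w).adicCompletion K) :
    finMapEquiv930 e w x ∈ w.adicCompletionIntegers L ↔
      x ∈ (finPull930 e w).adicCompletionIntegers K := by
  rw [HeightOneSpectrum.mem_adicCompletionIntegers, HeightOneSpectrum.mem_adicCompletionIntegers,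
    valued_finMapEquiv930]


omit [NumberField K] [NumberField L] in
theorem finPull930_injective (e : K ≃+* L) : Function.Injective (finPull930 e) :=
  (HeightOneSpectrum.equivOfRingEquiv (RingOfIntegers.mapRingEquiv e)).symm.injective

omit [NumberField K] [NumberField L] in
theorem tendsto_finPull930 (e : K ≃+* L) :
    Filter.Tendsto (finPull930 e) Filter.cofinite Filter.cofinite :=
  (finPull930_injective e).tendsto_cofinite

/-- The map of finite adele rings induced by `e : K ≃+* L`. -/
def finAdeleHom930 (e : K ≃+* L) : FiniteAdeleRing (𝓞 K) K →+* FiniteAdeleRing (𝓞 L) L :=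
  RestrictedProduct.mapAlongRingHom (fun v : HeightOneSpectrum (𝓞 K) => v.adicCompletion K)
    (fun w : HeightOneSpectrum (𝓞 L) => w.adicCompletion L) (finPull930 e) (tendsto_finPull930 e)
    (fun w => (finMapEquiv930 e w).toRingHom)
    (Filter.Eventually.of_forall fun w x hx => (finMapEquiv930_mem_integers e w x).2 hx)

theorem finAdeleHom930_apply (e : K ≃+* L) (a : FiniteAdeleRing (𝓞 K) K)
    (w : HeightOneSpectrum (𝓞 L)) :
    finAdeleHom930 e a w = finMapEquiv930 e w (a (finPull930 e w)) := rfl

theorem continuous_finAdeleHom930 (e : K ≃+* L) : Continuous (finAdeleHom930 e) :=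
  RestrictedProduct.mapAlong_continuous (fun v : HeightOneSpectrum (𝓞 K) => v.adicCompletion K)
    (fun w : HeightOneSpectrum (𝓞 L) => w.adicCompletion L) (finPull930 e) (tendsto_finPull930 e)
    (fun w => finMapEquiv930 e w)
    (Filter.Eventually.of_forall fun w x hx => (finMapEquiv930_mem_integers e w x).2 hx)
    (fun w => continuous_finMapEquiv930 e w)

theorem finAdeleHom930_algebraMap (e : K ≃+* L) (k : K) :
    finAdeleHom930 e (algebraMap K (FiniteAdeleRing (𝓞 K) K) k)
      = algebraMap L (FiniteAdeleRing (𝓞 L) L) (e k) := by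
  refine FiniteAdeleRing.ext L fun w => ?_
  rw [finAdeleHom930_apply]
  exact finMapEquiv930_coe e w k


/-- Two continuous ring homomorphisms out of `K_{v'}` and `K_v`, `v' = v`, which agree on `K`,
agree on the components of a finite adele. -/
theorem finAdele_apply_eq930 {M : Type*} [TopologicalSpace M] [T2Space M] [Semiring M]
    (v' v : HeightOneSpectrum (𝓞 K)) (h : v' = v)
    (ψ₁ : v'.adicCompletion K →+* M) (ψ₂ : v.adicCompletion K →+* M) (h₁ : Continuous ψ₁)
    (h₂ : Continuous ψ₂)
    (hk : ∀ k : K, ψ₁ (k : v'.adicCompletion K) = ψ₂ (k : v.adicCompletion K))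
    (a : FiniteAdeleRing (𝓞 K) K) : ψ₁ (a v') = ψ₂ (a v) := by
  subst h
  have hd : DenseRange (algebraMap K (v'.adicCompletion K)) :=
    HeightOneSpectrum.denseRange_algebraMap K v'
  have hcl : IsClosed {x : v'.adicCompletion K | ψ₁ x = ψ₂ x} := isClosed_eq h₁ h₂
  exact hd.induction_on (p := fun x => ψ₁ x = ψ₂ x) (a v') hcl hk

/-- A continuous ring homomorphism `K_{v'} → K_v` which is the identity on `K` is the identity
(transported along `v' = v`), evaluated on a finite adele. -/
theorem finAdele_apply_eq_of_id930 (v' v : HeightOneSpectrum (𝓞 K)) (h : v' = v)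
    (ψ : v'.adicCompletion K →+* v.adicCompletion K) (hψ : Continuous ψ)
    (hk : ∀ k : K, ψ (k : v'.adicCompletion K) = (k : v.adicCompletion K))
    (a : FiniteAdeleRing (𝓞 K) K) : ψ (a v') = a v :=
  finAdele_apply_eq930 v' v h ψ (RingHom.id _) hψ continuous_id hk a

theorem finAdeleHom930_symm_apply (e : K ≃+* L) (a : FiniteAdeleRing (𝓞 K) K) :
    finAdeleHom930 e.symm (finAdeleHom930 e a) = a := by
  refine FiniteAdeleRing.ext K fun v => ?_
  rw [finAdeleHom930_apply, finAdeleHom930_apply]
  refine finAdele_apply_eq_of_id930 (finPull930 e (finPull930 e.symm v)) v ?_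
    ((finMapEquiv930 e.symm v).toRingHom.comp (finMapEquiv930 e (finPull930 e.symm v)).toRingHom)
    ((continuous_finMapEquiv930 e.symm v).comp (continuous_finMapEquiv930 e _)) ?_ a
  · exact (HeightOneSpectrum.equivOfRingEquiv (RingOfIntegers.mapRingEquiv e)).symm_apply_apply v
  · intro k
    show finMapEquiv930 e.symm v (finMapEquiv930 e (finPull930 e.symm v) _) = _
    rw [finMapEquiv930_coe, finMapEquiv930_coe, RingEquiv.symm_apply_apply]

/-- The isomorphism of finite adele rings induced by `e : K ≃+* L`. -/
def finAdeleEquiv930 (e : K ≃+* L) : FiniteAdeleRing (𝓞 K) K ≃+* FiniteAdeleRing (𝓞 L) L :=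
  RingEquiv.ofRingHom (finAdeleHom930 e) (finAdeleHom930 e.symm)
    (RingHom.ext fun b => finAdeleHom930_symm_apply e.symm b)
    (RingHom.ext fun a => finAdeleHom930_symm_apply e a)


/-! ## The adele ring -/

/-- The isomorphism of adele rings induced by `e : K ≃+* L`. -/
def adeleEquiv930 (e : K ≃+* L) : AdeleRing (𝓞 K) K ≃+* AdeleRing (𝓞 L) L :=
  RingEquiv.prodCongr (infAdeleEquiv930 e) (finAdeleEquiv930 e)

theorem adeleEquiv930_fst (e : K ≃+* L) (a : AdeleRing (𝓞 K) K) (w : InfinitePlace L) :
    (adeleEquiv930 e a).1 w = infMapHom930 e w (a.1 (infPull930 e w)) := rfl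

theorem adeleEquiv930_snd (e : K ≃+* L) (a : AdeleRing (𝓞 K) K) (w : HeightOneSpectrum (𝓞 L)) :
    (adeleEquiv930 e a).2 w = finMapEquiv930 e w (a.2 (finPull930 e w)) := rfl

theorem adeleEquiv930_symm (e : K ≃+* L) : (adeleEquiv930 e).symm = adeleEquiv930 e.symm := rfl

theorem adeleEquiv930_symm_apply_apply (e : K ≃+* L) (a : AdeleRing (𝓞 K) K) :
    adeleEquiv930 e.symm (adeleEquiv930 e a) = a :=
  (adeleEquiv930 e).symm_apply_apply a

theorem adeleEquiv930_apply_symm_apply (e : K ≃+* L) (b : AdeleRing (𝓞 L) L) :
    adeleEquiv930 e (adeleEquiv930 e.symm b) = b :=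
  (adeleEquiv930 e).apply_symm_apply b

theorem continuous_adeleEquiv930 (e : K ≃+* L) : Continuous (adeleEquiv930 e) :=
  ((continuous_infAdeleHom930 e).comp continuous_fst).prodMk
    ((continuous_finAdeleHom930 e).comp continuous_snd)

theorem adeleEquiv930_algebraMap (e : K ≃+* L) (k : K) :
    adeleEquiv930 e (algebraMap K (AdeleRing (𝓞 K) K) k)
      = algebraMap L (AdeleRing (𝓞 L) L) (e k) :=
  Prod.ext (infAdeleHom930_algebraMap e k) (finAdeleHom930_algebraMap e k)

/-- `adeleEquiv930 e` as a homeomorphism. -/
def adeleHomeo930 (e : K ≃+* L) : AdeleRing (𝓞 K) K ≃ₜ AdeleRing (𝓞 L) L where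
  toEquiv := (adeleEquiv930 e).toEquiv
  continuous_toFun := continuous_adeleEquiv930 e
  continuous_invFun := continuous_adeleEquiv930 e.symm

theorem adeleHomeo930_apply (e : K ≃+* L) (a : AdeleRing (𝓞 K) K) :
    adeleHomeo930 e a = adeleEquiv930 e a := rfl

/-! ## Functoriality -/

theorem adeleEquiv930_refl (a : AdeleRing (𝓞 K) K) :
    adeleEquiv930 (RingEquiv.refl K) a = a := by
  refine Prod.ext (funext fun w => ?_) (FiniteAdeleRing.ext K fun w => ?_)
  · rw [adeleEquiv930_fst]
    exact infAdele_apply_eq_of_id930 (infPull930 (RingEquiv.refl K) w) w rfl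
      (infMapHom930 (RingEquiv.refl K) w) (continuous_infMapHom930 _ w)
      (fun k => infMapHom930_coe _ w k) a.1
  · rw [adeleEquiv930_snd]
    exact finAdele_apply_eq_of_id930 (finPull930 (RingEquiv.refl K) w) w rfl
      (finMapEquiv930 (RingEquiv.refl K) w).toRingHom (continuous_finMapEquiv930 _ w)
      (fun k => finMapEquiv930_coe _ w k) a.2

variable {M : Type*} [Field M] [NumberField M]

theorem adeleEquiv930_trans (e : K ≃+* L) (f : L ≃+* M) (a : AdeleRing (𝓞 K) K) :
    adeleEquiv930 (e.trans f) a = adeleEquiv930 f (adeleEquiv930 e a) := by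
  refine Prod.ext (funext fun w => ?_) (FiniteAdeleRing.ext M fun w => ?_)
  · rw [adeleEquiv930_fst, adeleEquiv930_fst, adeleEquiv930_fst]
    exact infAdele_apply_eq930 (infPull930 (e.trans f) w) (infPull930 e (infPull930 f w)) rfl
      (infMapHom930 (e.trans f) w)
      ((infMapHom930 f w).comp (infMapHom930 e (infPull930 f w)))
      (continuous_infMapHom930 _ w)
      ((continuous_infMapHom930 f w).comp (continuous_infMapHom930 e _))
      (fun k => by
        rw [infMapHom930_coe, RingHom.comp_apply, infMapHom930_coe, infMapHom930_coe]; rfl) a.1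
  · rw [adeleEquiv930_snd, adeleEquiv930_snd, adeleEquiv930_snd]
    exact finAdele_apply_eq930 (finPull930 (e.trans f) w) (finPull930 e (finPull930 f w)) rfl
      (finMapEquiv930 (e.trans f) w).toRingHom
      ((finMapEquiv930 f w).toRingHom.comp (finMapEquiv930 e (finPull930 f w)).toRingHom)
      (continuous_finMapEquiv930 _ w)
      ((continuous_finMapEquiv930 f w).comp (continuous_finMapEquiv930 e _))
      (fun k => by
        show finMapEquiv930 (e.trans f) w _ = finMapEquiv930 f w (finMapEquiv930 e _ _)
        rw [finMapEquiv930_coe, finMapEquiv930_coe, finMapEquiv930_coe]; rfl) a.2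

/-- The action of the automorphism group of `K` on the adele ring of `K`, as a group
homomorphism `σ ↦ adeleEquiv930 σ`. -/
def adeleAutHom930 : RingAut K →* RingAut (AdeleRing (𝓞 K) K) where
  toFun σ := adeleEquiv930 σ
  map_one' := RingEquiv.ext fun a => adeleEquiv930_refl a
  map_mul' σ τ := RingEquiv.ext fun a => adeleEquiv930_trans τ σ a

theorem adeleAutHom930_apply (σ : RingAut K) (a : AdeleRing (𝓞 K) K) :
    adeleAutHom930 σ a = adeleEquiv930 σ a := rfl

theorem adeleEquiv930_pow (σ : K ≃+* K) (n : ℕ) (a : AdeleRing (𝓞 K) K) :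
    adeleEquiv930 ((σ : RingAut K) ^ n) a = ((adeleEquiv930 σ : RingAut _) ^ n) a := by
  have := map_pow (adeleAutHom930 (K := K)) σ n
  exact congrArg (fun φ : RingAut (AdeleRing (𝓞 K) K) => φ a) this

end numberfield

end Fermat.Agent.LT.T1.H930
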