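import Fermat.Agent.LT.T1.H930.AdeleAutT5
import Fermat.Agent.LT.T5.H415.AutT5

/-!
# Row LT: `T5.AutPreserves` for EVERY `T5.AdelicAut` (helper930)

OFF-MAIN.  Imports `AdeleAutT5.lean` (helper930: `autPreserves930` for the constructed
automorphism `adelicAut930 σ`) and helper415's uniqueness `T5/H415/AutT5.lean`
(`adelicAut_ext415 : s.σ = s'.σ → s.σA = s'.σA`), byte-identical.

* `adelicAut_eq930 : s = adelicAut930 s.σ` for every `s : T5.AdelicAut K`;
* `autPreserves_all930` : for every `s : T5.AdelicAut K`, every `s.σ`-stable level `𝔫`, every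
  Haar measure `μ` of `GL₂(𝔸_K)` and every ray generator `r`:  `T5.AutPreserves s 𝔫 μ r`.
  (This is the remark in `T5/Spec.lean`: "All of this is TRUE for every `AdelicAut` and a
  `σ`-stable level".)
-/

set_option autoImplicit false

open IsDedekindDomain NumberField MeasureTheory

noncomputable section

namespace Fermat.Agent.LT.T1.H930

open Fermat.Agent.LT.H556 Fermat.Agent.LT

variable {K : Type} [Field K] [NumberField K]

/-- Every `T5.AdelicAut` is the constructed one. -/
theorem adelicAut_eq930 (s : T5.AdelicAut K) : s = adelicAut930 s.σ := by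
  have h : s.σA = (adelicAut930 s.σ).σA := T5.H415.adelicAut_ext415 s (adelicAut930 s.σ) rfl
  cases s
  simp only [adelicAut930] at h ⊢
  subst h
  rfl

/-- **`T5.AutPreserves` for every adelic automorphism** and every stable level. -/
theorem autPreserves_all930 (hLC : LocallyCompactSpace (A0.G K))
    (hSC : SecondCountableTopology (A0.G K)) (s : T5.AdelicAut K) (𝔫 : Ideal (𝓞 K))
    (h𝔫 : 𝔫.map (RingOfIntegers.mapRingEquiv s.σ) = 𝔫)
    (μ : @Measure (A0.G K) Fermat.Agent.LT.T5.instMeasurableSpaceG)
    (hμ : @Measure.IsHaarMeasure (A0.G K) _ _ Fermat.Agent.LT.T5.instMeasurableSpaceG μ)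
    (r : A0.G K) (hr : T5.IsRayGen r) :
    T5.AutPreserves s 𝔫 μ r := by
  rw [adelicAut_eq930 s]
  exact autPreserves930' hLC hSC s.σ 𝔫 h𝔫 μ hμ r hr

end Fermat.Agent.LT.T1.H930
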