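import Mathlib
import Fermat.Agent.LT.H556.A0
import Fermat.Agent.LT.T5.Spec
import Fermat.Agent.LT.T5.H372.LeafHS

/-!
# Row LT, asset RSIG (helper930): the operator `R(σ)` on cusp functions

OFF-MAIN.  Vocabulary: `LT/H556/A0.lean` (byte-identical copy), `LT/T5/Spec.lean` v4 of
helper32 (byte-identical copy; zero vectors allowed in `IsCuspONB`), and the folded map `tau372`
of helper372
(`LT/T5/H372/LeafHS.lean`, byte-identical copy).  Nothing else is imported: every statement is
for an ARBITRARY `s : T5.AdelicAut K` with `hP : T5.AutPreserves s 𝔫 μ r` as a hypothesis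
(`AutPreserves` itself is `autPreserves_all930` of `AdeleAutAll.lean`).

Hypothesis on the `K_∞`-type `τ` (automatic for `trivType`): `τ (s.onGinv k) = τ k` on the
elements of the compact groups `K_w`.

## Contents

1. `invAut930 s` : the inverse adelic automorphism; `autPreserves_invAut930`.
2. `isCuspidalFn_Rsig930` : `A0.IsCuspidalFn φ → A0.IsCuspidalFn (Rsig s φ)` (transport of the
   Haar measure and of the fundamental domain of `K` in `𝔸_K` along `σ_𝔸`).
3. `isCuspFn_Rsig930` : `IsCuspFn 𝔫 τ r e → IsCuspFn 𝔫 τ r (Rsig s e)`.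
4. `innerD_Rsig930` : `R(σ)` is unitary, `⟨R(σ) e, R(σ) f⟩ = ⟨e, f⟩` (continuous
   left-`GL₂(K)`-invariant `e`, `f`); `setIntegral_Rsig_of_aesm930` (measurable form),
   `innerD_Rsig_right930` (adjunction).
5. `isCuspONB_Rsig930` : `R(σ)` maps a complete orthonormal system of cusp functions to a
   complete orthonormal system of cusp functions.
6. `Rsig_Rconv930` : `R(σ) R(φ) = R(σ φ) R(σ)`; `Rsig_conv930`, `Rsig_adjointFn930`,
   `integral_comp_onG930`, `integral_comp_onGinv930`.
-/

set_option autoImplicit false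

open IsDedekindDomain NumberField MeasureTheory
open scoped MatrixGroups ComplexConjugate

noncomputable section

namespace Fermat.Agent.LT.T1.H930

open Fermat.Agent.LT.H556.A0 Fermat.Agent.LT.T5

variable {K : Type} [Field K] [NumberField K]

attribute [local instance] Fermat.Agent.LT.T5.instMeasurableSpaceG

/-- `GL₂(𝔸_K)` with its Borel σ-algebra is a Borel space (local instance of this file). -/
local instance instBorelSpaceG930 : BorelSpace (G K) := ⟨rfl⟩

/-! ## 1. The inverse automorphism -/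

/-- The inverse adelic automorphism. -/
def invAut930 (s : AdelicAut K) : AdelicAut K where
  σ := s.σ.symm
  σA := s.σA.symm
  continuous_σA := s.continuous_symm
  continuous_symm := s.continuous_σA
  compat := fun x => by
    rw [RingEquiv.symm_apply_eq, s.compat, RingEquiv.apply_symm_apply]

theorem invAut930_onG (s : AdelicAut K) : (invAut930 s).onG = s.onGinv := rfl

theorem invAut930_onGinv (s : AdelicAut K) : (invAut930 s).onGinv = s.onG := rfl

theorem invAut930_invAut930 (s : AdelicAut K) : invAut930 (invAut930 s) = s := rfl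

theorem onGinv_onG930 (s : AdelicAut K) (g : G K) : s.onGinv (s.onG g) = g := by
  apply Units.ext
  ext i j
  simp [AdelicAut.onG, AdelicAut.onGinv, Matrix.GeneralLinearGroup.map_apply]

theorem onG_onGinv930 (s : AdelicAut K) (g : G K) : s.onG (s.onGinv g) = g :=
  onGinv_onG930 (invAut930 s) g

theorem onG_ratG930 (s : AdelicAut K) (γ : GL (Fin 2) K) : s.onG (ratG γ) = ratG (s.onRat γ) := by
  apply Units.ext
  ext i j
  simp [AdelicAut.onG, AdelicAut.onRat, ratG, Matrix.GeneralLinearGroup.map_apply, s.compat]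

theorem onGinv_ratG930 (s : AdelicAut K) (γ : GL (Fin 2) K) :
    s.onGinv (ratG γ) = ratG ((invAut930 s).onRat γ) :=
  onG_ratG930 (invAut930 s) γ

theorem continuous_onG930 (s : AdelicAut K) : Continuous (s.onG : G K → G K) :=
  Fermat.Agent.LT.T5.H372.continuous_onGinv372 (invAut930 s)

theorem Rsig_invAut930 (s : AdelicAut K) (e : G K → ℂ) :
    Rsig (invAut930 s) e = fun x => e (s.onG x) := rfl

theorem Rsig_Rsig_invAut930 (s : AdelicAut K) (e : G K → ℂ) :
    Rsig s (Rsig (invAut930 s) e) = e := by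
  funext x
  show e (s.onG (s.onGinv x)) = e x
  rw [onG_onGinv930]

theorem Rsig_invAut_Rsig930 (s : AdelicAut K) (e : G K → ℂ) :
    Rsig (invAut930 s) (Rsig s e) = e :=
  Rsig_Rsig_invAut930 (invAut930 s) e

variable {s : AdelicAut K} {𝔫 : Ideal (𝓞 K)} {μ : Measure (G K)} {F : Set (G K)} {r : G K}

/-- `AutPreserves` passes to the inverse automorphism. -/
theorem autPreserves_invAut930 (hP : AutPreserves s 𝔫 μ r) :
    AutPreserves (invAut930 s) 𝔫 μ r where
  left_inverse := onG_onGinv930 s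
  right_inverse := onGinv_onG930 s
  rat := onGinv_ratG930 s
  cont := Fermat.Agent.LT.T5.H372.continuous_onGinv372 s
  measure := by
    intro A hA
    show μ (s.onGinv ⁻¹' A) = μ A
    have hm : MeasurableSet (s.onGinv ⁻¹' A) :=
      (Fermat.Agent.LT.T5.H372.continuous_onGinv372 s).measurable hA
    have h := hP.measure _ hm
    rw [← h]
    congr 1
    ext g
    simp only [Set.mem_preimage, onGinv_onG930]
  ray := by
    show s.onGinv r = r
    conv_lhs => rw [← hP.ray]
    exact onGinv_onG930 s r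
  slab := by
    intro g
    show g ∈ slab K ↔ s.onGinv g ∈ slab K
    have h := hP.slab (s.onGinv g)
    rw [onG_onGinv930] at h
    exact h.symm
  level := by
    intro u
    show InLevelGroup 𝔫 u ↔ InLevelGroup 𝔫 (s.onGinv u)
    have h := hP.level (s.onGinv u)
    rw [onG_onGinv930] at h
    exact h.symm
  arch := by
    intro k
    show (∃ w, IsArchCompact w k) ↔ (∃ w, IsArchCompact w (s.onGinv k))
    have h := hP.arch (s.onGinv k)
    rw [onG_onGinv930] at h
    exact h.symm


/-! ## 2. Transport of the vanishing of the constant term -/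

/-- `σ_𝔸` as a continuous additive equivalence. -/
def autCAE930 (s : AdelicAut K) : Adl K ≃ₜ+ Adl K where
  toAddEquiv := s.σA.toAddEquiv
  continuous_toFun := s.continuous_σA
  continuous_invFun := s.continuous_symm

theorem autCAE930_apply (s : AdelicAut K) (x : Adl K) : autCAE930 s x = s.σA x := rfl

theorem autCAE930_symm_apply (s : AdelicAut K) (y : Adl K) :
    (autCAE930 s).symm y = s.σA.symm y := rfl

/-- The principal adeles. -/
abbrev princAd930 (K : Type) [Field K] [NumberField K] : AddSubgroup (Adl K) :=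
  (algebraMap K (Adl K)).toAddMonoidHom.range

/-- `σ_𝔸` maps the principal adeles onto themselves. -/
def princAut930 (s : AdelicAut K) : princAd930 K ≃ princAd930 K where
  toFun y := ⟨s.σA y.1, by
    obtain ⟨k, hk⟩ := y.2
    refine ⟨s.σ k, ?_⟩
    show algebraMap K (Adl K) (s.σ k) = s.σA y.1
    rw [← s.compat k]
    exact congrArg _ hk⟩
  invFun x := ⟨s.σA.symm x.1, by
    obtain ⟨k, hk⟩ := x.2
    refine ⟨s.σ.symm k, ?_⟩
    show algebraMap K (Adl K) (s.σ.symm k) = s.σA.symm x.1
    have h1 : s.σA.symm (algebraMap K (Adl K) k) = algebraMap K (Adl K) (s.σ.symm k) :=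
      (invAut930 s).compat k
    rw [← h1]
    exact congrArg _ hk⟩
  left_inv y := Subtype.ext (s.σA.symm_apply_apply y.1)
  right_inv x := Subtype.ext (s.σA.apply_symm_apply x.1)

theorem onG_val930 (s : AdelicAut K) (g : G K) :
    ((s.onG g : G K) : Matrix (Fin 2) (Fin 2) (Adl K))
      = (g : Matrix (Fin 2) (Fin 2) (Adl K)).map s.σA := rfl

theorem onGinv_val930 (s : AdelicAut K) (g : G K) :
    ((s.onGinv g : G K) : Matrix (Fin 2) (Fin 2) (Adl K))
      = (g : Matrix (Fin 2) (Fin 2) (Adl K)).map s.σA.symm := rfl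

/-- The vanishing of the constant term is preserved by `φ ↦ φ ∘ σ`. -/
theorem isCuspidalFn_comp_onG930 (s : AdelicAut K) (φ : G K → ℂ)
    (h : IsCuspidalFn φ) : IsCuspidalFn (fun g => φ (s.onG g)) := by
  let _ : MeasurableSpace (Adl K) := borel (Adl K)
  have : BorelSpace (Adl K) := ⟨rfl⟩
  intro μ hμ D hD n hn g
  have := hμ
  set A : Adl K ≃ₜ+ Adl K := autCAE930 s with hA
  set Am : Adl K ≃ᵐ Adl K := A.toHomeomorph.toMeasurableEquiv with hAm
  have hAm_apply : ∀ x, Am x = s.σA x := fun _ => rfl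
  have hAm_symm : ∀ y, Am.symm y = s.σA.symm y := fun _ => rfl
  set ν : Measure (Adl K) := μ.map Am with hν
  have hνH : ν.IsAddHaarMeasure := A.isAddHaarMeasure_map μ
  have hmp : MeasurePreserving Am μ ν := Am.measurable.measurePreserving μ
  have hmp' : MeasurePreserving Am.symm ν μ := hmp.symm Am
  have hD' : IsAddFundamentalDomain (princAd930 K) (Am '' D) ν := by
    refine hD.image_of_equiv Am.toEquiv hmp'.quasiMeasurePreserving (princAut930 s).symm ?_
    intro y x
    show s.σA (((princAut930 s).symm y : Adl K) + x) = (y : Adl K) + s.σA x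
    rw [map_add]
    congr 1
    exact s.σA.apply_symm_apply y.1
  set n' : Adl K → G K := fun y => s.onG (n (s.σA.symm y)) with hn'
  have hn'1 : ∀ y : Adl K,
      (n' y : Matrix (Fin 2) (Fin 2) (Adl K)) = !![1, y; 0, 1] := by
    intro y
    refine Matrix.ext fun i j => ?_
    rw [hn', onG_val930, hn]
    fin_cases i <;> fin_cases j <;> simp
  have key := h ν hνH (Am '' D) hD' n' hn'1 (s.onG g)
  rw [hmp.setIntegral_image_emb Am.measurableEmbedding] at key
  rw [← key]
  refine setIntegral_congr_fun₀ ?_ ?_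
  · exact hD.nullMeasurableSet
  · intro x _
    show φ (s.onG (n x * g)) = φ (s.onG (n (s.σA.symm (Am x))) * s.onG g)
    rw [hAm_apply, RingEquiv.symm_apply_apply, map_mul]

/-- The vanishing of the constant term is preserved by `R(σ)`. -/
theorem isCuspidalFn_Rsig930 (s : AdelicAut K) (φ : G K → ℂ)
    (h : IsCuspidalFn φ) : IsCuspidalFn (Rsig s φ) :=
  isCuspidalFn_comp_onG930 (invAut930 s) φ h

/-! ## 3. `R(σ)` preserves the cusp functions -/

/-- `R(σ)` preserves the automorphic functions of level `𝔫` and type `τ`, when `σ` preserves the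
frame and `τ` is `σ`-invariant on the compact groups at the infinite places. -/
theorem isAutomorphicFn_Rsig930 (hP : AutPreserves s 𝔫 μ r) {τ : G K → ℂ}
    (hτ : ∀ (w : InfinitePlace K) (k : G K), IsArchCompact w k → τ (s.onGinv k) = τ k)
    {e : G K → ℂ} (he : IsAutomorphicFn 𝔫 τ r e) : IsAutomorphicFn 𝔫 τ r (Rsig s e) where
  left_inv := by
    intro γ g
    show e (s.onGinv (ratG γ * g)) = e (s.onGinv g)
    rw [map_mul, onGinv_ratG930, he.left_inv]
  level_inv := by
    intro u hu g
    show e (s.onGinv (g * u)) = e (s.onGinv g)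
    rw [map_mul]
    exact he.level_inv _ (((autPreserves_invAut930 hP).level u).1 hu) _
  arch_compact := by
    intro w k hk g
    show e (s.onGinv (g * k)) = τ k * e (s.onGinv g)
    obtain ⟨w', hw'⟩ := ((autPreserves_invAut930 hP).arch k).1 ⟨w, hk⟩
    have hw'' : IsArchCompact w' (s.onGinv k) := hw'
    rw [map_mul, he.arch_compact w' _ hw'', hτ w k hk]
  ray := by
    intro g
    show e (s.onGinv (g * r)) = e (s.onGinv g)
    have hr : s.onGinv r = r := (autPreserves_invAut930 hP).ray
    rw [map_mul, hr, he.ray]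

/-- **`R(σ)` preserves the cusp functions** of level `𝔫` and type `τ`. -/
theorem isCuspFn_Rsig930 (hP : AutPreserves s 𝔫 μ r) {τ : G K → ℂ}
    (hτ : ∀ (w : InfinitePlace K) (k : G K), IsArchCompact w k → τ (s.onGinv k) = τ k)
    {e : G K → ℂ} (he : IsCuspFn 𝔫 τ r e) : IsCuspFn 𝔫 τ r (Rsig s e) where
  cont := he.cont.comp (Fermat.Agent.LT.T5.H372.continuous_onGinv372 s)
  bdd := by
    obtain ⟨C, hC⟩ := he.bdd
    exact ⟨C, fun g => hC _⟩
  aut := isAutomorphicFn_Rsig930 hP hτ he.aut
  cuspidal := isCuspidalFn_Rsig930 s e he.cuspidal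

/-- The invariance hypothesis on the type passes to the inverse automorphism. -/
theorem ktype_invAut930 (hP : AutPreserves s 𝔫 μ r) {τ : G K → ℂ}
    (hτ : ∀ (w : InfinitePlace K) (k : G K), IsArchCompact w k → τ (s.onGinv k) = τ k)
    (w : InfinitePlace K) (k : G K) (hk : IsArchCompact w k) :
    τ ((invAut930 s).onGinv k) = τ k := by
  show τ (s.onG k) = τ k
  obtain ⟨w', hw'⟩ := (hP.arch k).1 ⟨w, hk⟩
  have h := hτ w' _ hw'
  rw [onGinv_onG930] at h
  exact h.symm

/-- `R(σ)⁻¹` preserves the cusp functions. -/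
theorem isCuspFn_comp_onG930 (hP : AutPreserves s 𝔫 μ r) {τ : G K → ℂ}
    (hτ : ∀ (w : InfinitePlace K) (k : G K), IsArchCompact w k → τ (s.onGinv k) = τ k)
    {e : G K → ℂ} (he : IsCuspFn 𝔫 τ r e) : IsCuspFn 𝔫 τ r (fun x => e (s.onG x)) :=
  isCuspFn_Rsig930 (autPreserves_invAut930 hP) (ktype_invAut930 hP hτ) he

/-- The trivial type is invariant. -/
theorem trivType_invariant930 (s : AdelicAut K) (w : InfinitePlace K) (k : G K)
    (_ : IsArchCompact w k) : (trivType : G K → ℂ) (s.onGinv k) = trivType k := rfl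

/-! ## 4. `R(σ)` is unitary -/

open Fermat.Agent.LT.T5.H372 in
/-- On left-`GL₂(K)`-invariant functions, `R(σ)` is the composition with the folded map
`τ(y) = γ(y) σ⁻¹(y)` of helper372. -/
theorem comp_tau_invAut930 (s : AdelicAut K) (F : Set (G K)) {e : G K → ℂ}
    (he : ∀ (γ : GL (Fin 2) K) (g : G K), e (ratG γ * g) = e g) (y : G K) :
    e (tau372 (invAut930 s) F y) = Rsig s e y := by
  show e (ratG _ * s.onGinv y) = e (s.onGinv y)
  rw [he]

open Fermat.Agent.LT.T5.H372 in
/-- Change of variables on the fundamental domain, measurable form: for a left-`GL₂(K)`-invariant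
function `h` which is a.e. strongly measurable on `F`, `∫_F h(σ⁻¹ x) dx = ∫_F h(x) dx`. -/
theorem setIntegral_Rsig_of_aesm930 (hF : IsFrame μ F) (hP : AutPreserves s 𝔫 μ r)
    {h : G K → ℂ} (hsm : AEStronglyMeasurable h (μ.restrict F))
    (hinv : ∀ (γ : GL (Fin 2) K) (g : G K), h (ratG γ * g) = h g) :
    ∫ x in F, Rsig s h x ∂μ = ∫ x in F, h x ∂μ := by
  have hmp := measurePreserving_tau372 hF (autPreserves_invAut930 hP)
  have hsm' : AEStronglyMeasurable h (Measure.map (tau372 (invAut930 s) F) (μ.restrict F)) := by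
    rw [hmp.map_eq]
    exact hsm
  have key := integral_map hmp.measurable.aemeasurable hsm'
  rw [hmp.map_eq] at key
  rw [key]
  refine integral_congr_ae (Filter.Eventually.of_forall fun y => ?_)
  exact (comp_tau_invAut930 s F hinv y).symm

/-- Change of variables on the fundamental domain: for a continuous left-`GL₂(K)`-invariant
function `h`, `∫_F h(σ⁻¹ x) dx = ∫_F h(x) dx`. -/
theorem setIntegral_Rsig930 (hF : IsFrame μ F) (hP : AutPreserves s 𝔫 μ r) {h : G K → ℂ}
    (hc : Continuous h) (hinv : ∀ (γ : GL (Fin 2) K) (g : G K), h (ratG γ * g) = h g) :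
    ∫ x in F, Rsig s h x ∂μ = ∫ x in F, h x ∂μ :=
  setIntegral_Rsig_of_aesm930 hF hP hc.aestronglyMeasurable hinv

/-- **`R(σ)` is unitary** for the inner product on the fundamental domain (on continuous
left-`GL₂(K)`-invariant functions). -/
theorem innerD_Rsig930 (hF : IsFrame μ F) (hP : AutPreserves s 𝔫 μ r) {e f : G K → ℂ}
    (hec : Continuous e) (hfc : Continuous f)
    (he : ∀ (γ : GL (Fin 2) K) (g : G K), e (ratG γ * g) = e g)
    (hf : ∀ (γ : GL (Fin 2) K) (g : G K), f (ratG γ * g) = f g) :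
    innerD μ F (Rsig s e) (Rsig s f) = innerD μ F e f := by
  have hc : Continuous (fun x => e x * conj (f x)) :=
    hec.mul (Complex.continuous_conj.comp hfc)
  have hinv : ∀ (γ : GL (Fin 2) K) (g : G K),
      (fun x => e x * conj (f x)) (ratG γ * g) = (fun x => e x * conj (f x)) g := by
    intro γ g
    show e (ratG γ * g) * conj (f (ratG γ * g)) = e g * conj (f g)
    rw [he, hf]
  exact setIntegral_Rsig930 hF hP hc hinv

/-- `R(σ)` is unitary on the cusp functions. -/
theorem innerD_Rsig_cusp930 (hF : IsFrame μ F) (hP : AutPreserves s 𝔫 μ r) {τ : G K → ℂ}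
    {e f : G K → ℂ} (he : IsCuspFn 𝔫 τ r e) (hf : IsCuspFn 𝔫 τ r f) :
    innerD μ F (Rsig s e) (Rsig s f) = innerD μ F e f :=
  innerD_Rsig930 hF hP he.cont hf.cont he.aut.left_inv hf.aut.left_inv

/-- Adjunction: `⟨f, R(σ) e⟩ = ⟨R(σ)⁻¹ f, e⟩`. -/
theorem innerD_Rsig_right930 (hF : IsFrame μ F) (hP : AutPreserves s 𝔫 μ r) {e f : G K → ℂ}
    (hec : Continuous e) (hfc : Continuous f)
    (he : ∀ (γ : GL (Fin 2) K) (g : G K), e (ratG γ * g) = e g)
    (hf : ∀ (γ : GL (Fin 2) K) (g : G K), f (ratG γ * g) = f g) :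
    innerD μ F f (Rsig s e) = innerD μ F (Rsig (invAut930 s) f) e := by
  have hf' : ∀ (γ : GL (Fin 2) K) (g : G K),
      Rsig (invAut930 s) f (ratG γ * g) = Rsig (invAut930 s) f g := by
    intro γ g
    show f (s.onG (ratG γ * g)) = f (s.onG g)
    rw [map_mul, onG_ratG930, hf]
  have hc' : Continuous (Rsig (invAut930 s) f) := hfc.comp (continuous_onG930 s)
  have h := innerD_Rsig930 hF hP hc' hec hf' he
  rw [Rsig_Rsig_invAut930] at h
  exact h

/-! ## 5. `R(σ)` permutes the complete orthonormal systems of cusp functions -/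

/-- **`R(σ)` maps a complete orthonormal system of cusp functions to a complete orthonormal
system of cusp functions.** -/
theorem isCuspONB_Rsig930 (hF : IsFrame μ F) (hP : AutPreserves s 𝔫 μ r) {τ : G K → ℂ}
    (hτ : ∀ (w : InfinitePlace K) (k : G K), IsArchCompact w k → τ (s.onGinv k) = τ k)
    {e : ℕ → G K → ℂ} (he : IsCuspONB 𝔫 τ r μ F e) :
    IsCuspONB 𝔫 τ r μ F (fun i => Rsig s (e i)) where
  cusp i := isCuspFn_Rsig930 hP hτ (he.cusp i)
  orth i j hij := by
    rw [innerD_Rsig_cusp930 hF hP (he.cusp i) (he.cusp j)]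
    exact he.orth i j hij
  norm i := by
    rcases he.norm i with h1 | h0
    · left
      rw [innerD_Rsig_cusp930 hF hP (he.cusp i) (he.cusp i)]
      exact h1
    · right
      intro g
      exact h0 _
  complete f hf := by
    have hf' : IsCuspFn 𝔫 τ r (Rsig (invAut930 s) f) := isCuspFn_comp_onG930 hP hτ hf
    have h := he.complete _ hf'
    have e1 : ∀ i, innerD μ F f (Rsig s (e i)) = innerD μ F (Rsig (invAut930 s) f) (e i) :=
      fun i => innerD_Rsig_right930 hF hP (he.cusp i).cont hf.cont (he.cusp i).aut.left_inv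
        hf.aut.left_inv
    have e2 : innerD μ F f f
        = innerD μ F (Rsig (invAut930 s) f) (Rsig (invAut930 s) f) := by
      have h2 := innerD_Rsig_cusp930 hF hP hf' hf'
      rw [Rsig_Rsig_invAut930] at h2
      exact h2
    simp only [e1, e2]
    exact h

/-- The same for `R(σ)⁻¹`. -/
theorem isCuspONB_comp_onG930 (hF : IsFrame μ F) (hP : AutPreserves s 𝔫 μ r) {τ : G K → ℂ}
    (hτ : ∀ (w : InfinitePlace K) (k : G K), IsArchCompact w k → τ (s.onGinv k) = τ k)
    {e : ℕ → G K → ℂ} (he : IsCuspONB 𝔫 τ r μ F e) :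
    IsCuspONB 𝔫 τ r μ F (fun i x => e i (s.onG x)) :=
  isCuspONB_Rsig930 hF (autPreserves_invAut930 hP) (ktype_invAut930 hP hτ) he

/-! ## 6. `R(σ) R(φ) R(σ)⁻¹ = R(σ φ)` -/

/-- `σ` as a homeomorphism of `GL₂(𝔸_K)`. -/
def onGHomeo930 (s : AdelicAut K) : G K ≃ₜ G K where
  toFun := s.onG
  invFun := s.onGinv
  left_inv := onGinv_onG930 s
  right_inv := onG_onGinv930 s
  continuous_toFun := continuous_onG930 s
  continuous_invFun := Fermat.Agent.LT.T5.H372.continuous_onGinv372 s

theorem measurePreserving_onG930 (hP : AutPreserves s 𝔫 μ r) :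
    MeasurePreserving (onGHomeo930 s).toMeasurableEquiv μ μ := by
  refine ⟨(onGHomeo930 s).toMeasurableEquiv.measurable, Measure.ext fun A hA => ?_⟩
  rw [Measure.map_apply (onGHomeo930 s).toMeasurableEquiv.measurable hA]
  exact hP.measure A hA

theorem measurePreserving_onGinv930 (hP : AutPreserves s 𝔫 μ r) :
    MeasurePreserving (onGHomeo930 s).symm.toMeasurableEquiv μ μ := by
  refine ⟨(onGHomeo930 s).symm.toMeasurableEquiv.measurable, Measure.ext fun A hA => ?_⟩
  rw [Measure.map_apply (onGHomeo930 s).symm.toMeasurableEquiv.measurable hA]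
  exact (autPreserves_invAut930 hP).measure A hA

/-- Change of variables on the whole group: `∫ h(σ⁻¹ y) dy = ∫ h(y) dy` (any `h`). -/
theorem integral_comp_onGinv930 (hP : AutPreserves s 𝔫 μ r) (h : G K → ℂ) :
    ∫ y, h (s.onGinv y) ∂μ = ∫ y, h y ∂μ :=
  (measurePreserving_onGinv930 hP).integral_comp' h

/-- Change of variables on the whole group: `∫ h(σ y) dy = ∫ h(y) dy` (any `h`). -/
theorem integral_comp_onG930 (hP : AutPreserves s 𝔫 μ r) (h : G K → ℂ) :
    ∫ y, h (s.onG y) ∂μ = ∫ y, h y ∂μ :=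
  (measurePreserving_onG930 hP).integral_comp' h

/-- **Intertwining relation** `R(σ) R(φ) = R(σ φ) R(σ)`, where `σ φ = φ ∘ σ⁻¹`
(no hypothesis on `φ`, `e`). -/
theorem Rsig_Rconv930 (hP : AutPreserves s 𝔫 μ r) (φ e : G K → ℂ) :
    Rsig s (Rconv μ φ e) = Rconv μ (Rsig s φ) (Rsig s e) := by
  funext x
  show ∫ y, φ y * e (s.onGinv x * y) ∂μ = ∫ y, φ (s.onGinv y) * e (s.onGinv (x * y)) ∂μ
  rw [← integral_comp_onGinv930 hP (fun y => φ y * e (s.onGinv x * y))]
  refine integral_congr_ae (Filter.Eventually.of_forall fun y => ?_)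
  show φ (s.onGinv y) * e (s.onGinv x * s.onGinv y) = φ (s.onGinv y) * e (s.onGinv (x * y))
  rw [map_mul]

/-- If `φ` is `σ`-invariant, `R(σ)` commutes with `R(φ)`. -/
theorem Rsig_Rconv_of_invariant930 (hP : AutPreserves s 𝔫 μ r) {φ : G K → ℂ}
    (hφ : ∀ g, φ (s.onGinv g) = φ g) (e : G K → ℂ) :
    Rsig s (Rconv μ φ e) = Rconv μ φ (Rsig s e) := by
  rw [Rsig_Rconv930 hP]
  congr 1
  funext g
  exact hφ g

/-- `R(σ)` of a convolution: `σ(φ₁ ⋆ φ₂) = σ φ₁ ⋆ σ φ₂`. -/
theorem Rsig_conv930 (hP : AutPreserves s 𝔫 μ r) (φ₁ φ₂ : G K → ℂ) :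
    Rsig s (conv μ φ₁ φ₂) = conv μ (Rsig s φ₁) (Rsig s φ₂) := by
  funext x
  show ∫ y, φ₁ y * φ₂ (y⁻¹ * s.onGinv x) ∂μ
    = ∫ y, φ₁ (s.onGinv y) * φ₂ (s.onGinv (y⁻¹ * x)) ∂μ
  rw [← integral_comp_onGinv930 hP (fun y => φ₁ y * φ₂ (y⁻¹ * s.onGinv x))]
  refine integral_congr_ae (Filter.Eventually.of_forall fun y => ?_)
  show φ₁ (s.onGinv y) * φ₂ ((s.onGinv y)⁻¹ * s.onGinv x)
    = φ₁ (s.onGinv y) * φ₂ (s.onGinv (y⁻¹ * x))
  rw [map_mul, map_inv]

/-- `R(σ)` commutes with the adjoint of test functions. -/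
theorem Rsig_adjointFn930 (s : AdelicAut K) (φ : G K → ℂ) :
    Rsig s (adjointFn φ) = adjointFn (Rsig s φ) := by
  funext x
  show conj (φ (s.onGinv x)⁻¹) = conj (φ (s.onGinv x⁻¹))
  rw [map_inv]

end Fermat.Agent.LT.T1.H930
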