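import Fermat.Agent.LT.T1.H930.AdeleAutAll
import Fermat.Agent.LT.T1.H930.RsigCusp

/-!
# Row LT, asset RSIG part 2 (helper930): `R(σ)` has finite order and moves the Hecke eigenvalues

OFF-MAIN.  For EVERY `s : T5.AdelicAut K` (through `adelicAut_eq930 : s = adelicAut930 s.σ`):

* `onG_eq_glAdeleEquiv930`, `onGinv_eq_glAdeleEquiv930` : `s.onG = glAdeleEquiv930 s.σ`;
* `onG_iterate_eq930`, `Rsig_iterate_eq930`, `Rsig_iterate_of_cyclic930` : `σ^l = 1` on `K` gives
  `σ^l = 1` on `GL₂(𝔸_K)` and `R(σ)^l = 1` (so `R(σ)` is unitary of finite order, memo of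
  helper797 par. C5a);
* `placeRel_finPull930`, `placeRel_iff930` : `T5.PlaceRel s w w' ↔ w' = finPull930 s.σ.symm w`;
* `isHeckeEigenAt_Rsig930` : `PlaceRel s w w' → (A0.IsHeckeEigenAt (Rsig s φ) w' a b ↔
  A0.IsHeckeEigenAt φ w a b)`: `R(σ)` maps the joint eigenspace of the eigen-data `C` onto the
  joint eigenspace of `C ∘ σ⁻¹`, in particular it preserves `V(C₀)` when `C₀ ∘ σ = C₀`.
-/

set_option autoImplicit false

open IsDedekindDomain NumberField MeasureTheory
open scoped MatrixGroups ComplexConjugate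

noncomputable section

namespace Fermat.Agent.LT.T1.H930

open Fermat.Agent.LT.H556.A0 Fermat.Agent.LT.T5

variable {K : Type} [Field K] [NumberField K]

/-! ## 1. `R(σ)` has finite order -/

theorem onG_eq_glAdeleEquiv930 (s : AdelicAut K) (g : G K) :
    s.onG g = glAdeleEquiv930 s.σ g := by
  conv_lhs => rw [adelicAut_eq930 s]
  exact adelicAut930_onG s.σ g

theorem onGinv_eq_glAdeleEquiv930 (s : AdelicAut K) (g : G K) :
    s.onGinv g = glAdeleEquiv930 s.σ.symm g := by
  conv_lhs => rw [adelicAut_eq930 s]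
  exact adelicAut930_onGinv s.σ g

theorem glAdeleEquiv930_pow (σ : K ≃+* K) (n : ℕ) (g : G K) :
    glAdeleEquiv930 ((σ : RingAut K) ^ n) g = (glAdeleEquiv930 σ)^[n] g := by
  induction n generalizing g with
  | zero => exact glAdeleEquiv930_refl g
  | succ n ih =>
    rw [Function.iterate_succ_apply, ← ih, pow_succ]
    exact glAdeleEquiv930_trans σ ((σ : RingAut K) ^ n) g

theorem onG_iterate930 (s : AdelicAut K) (n : ℕ) (g : G K) :
    (s.onG)^[n] g = glAdeleEquiv930 ((s.σ : RingAut K) ^ n) g := by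
  rw [glAdeleEquiv930_pow]
  congr 1
  funext x
  exact onG_eq_glAdeleEquiv930 s x

/-- If `σ^l = 1` on `K` then `σ^l = 1` on `GL₂(𝔸_K)`. -/
theorem onG_iterate_eq930 (s : AdelicAut K) (l : ℕ) (h : ∀ x : K, (s.σ ^ l) x = x) (g : G K) :
    (s.onG)^[l] g = g := by
  rw [onG_iterate930]
  have h1 : (s.σ : RingAut K) ^ l = RingEquiv.refl K := RingEquiv.ext h
  rw [h1]
  exact glAdeleEquiv930_refl g

theorem onGinv_iterate_eq930 (s : AdelicAut K) (l : ℕ) (h : ∀ x : K, (s.σ ^ l) x = x) (g : G K) :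
    (s.onGinv)^[l] g = g := by
  have h1 : ∀ n : ℕ, ∀ x : G K, (s.onGinv)^[n] ((s.onG)^[n] x) = x := fun n =>
    Function.LeftInverse.iterate (onGinv_onG930 s) n
  have h2 := h1 l g
  rw [onG_iterate_eq930 s l h] at h2
  exact h2

theorem Rsig_iterate930 (s : AdelicAut K) (n : ℕ) (e : G K → ℂ) :
    (Rsig s)^[n] e = fun x => e ((s.onGinv)^[n] x) := by
  induction n generalizing e with
  | zero => rfl
  | succ n ih =>
    rw [Function.iterate_succ_apply, ih]
    funext x
    show e (s.onGinv ((s.onGinv)^[n] x)) = e ((s.onGinv)^[n + 1] x)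
    rw [Function.iterate_succ_apply']

/-- **`R(σ)` has finite order**: `R(σ)^l = 1` if `σ^l = 1`. -/
theorem Rsig_iterate_eq930 (s : AdelicAut K) (l : ℕ) (h : ∀ x : K, (s.σ ^ l) x = x)
    (e : G K → ℂ) : (Rsig s)^[l] e = e := by
  rw [Rsig_iterate930]
  funext x
  rw [onGinv_iterate_eq930 s l h]

theorem Rsig_iterate_of_cyclic930 {s : AdelicAut K} {l : ℕ} {k : Subfield K}
    (hc : IsCyclicOfDegree s l k) (e : G K → ℂ) : (Rsig s)^[l] e = e :=
  Rsig_iterate_eq930 s l hc.pow_eq e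

/-! ## 2. `R(σ)` and the Hecke operators -/

/-- The place `σ(w)` (as `finPull930 σ⁻¹ w`) is the image of `w` in the sense of `T5.PlaceRel`. -/
theorem placeRel_finPull930 (s : AdelicAut K) (w : HeightOneSpectrum (𝓞 K)) :
    PlaceRel s w (finPull930 s.σ.symm w) := by
  show (finPull930 s.σ.symm w).asIdeal = Ideal.map (RingOfIntegers.mapRingEquiv s.σ) w.asIdeal
  have h := Ideal.map_symm (I := w.asIdeal) (f := (RingOfIntegers.mapRingEquiv s.σ).symm)
  exact h.symm

theorem placeRel_iff930 (s : AdelicAut K) (w w' : HeightOneSpectrum (𝓞 K)) :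
    PlaceRel s w w' ↔ w' = finPull930 s.σ.symm w := by
  constructor
  · intro h
    apply HeightOneSpectrum.ext
    rw [h]
    exact (placeRel_finPull930 s w).symm
  · rintro rfl
    exact placeRel_finPull930 s w

/-- **`R(σ)` moves the Hecke eigenvalues at `w` to the place `σ(w)`.** -/
theorem isHeckeEigenAt_Rsig930 (s : AdelicAut K) {w w' : HeightOneSpectrum (𝓞 K)}
    (h : PlaceRel s w w') (φ : G K → ℂ) (a b : ℂ) :
    IsHeckeEigenAt (Rsig s φ) w' a b ↔ IsHeckeEigenAt φ w a b := by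
  rw [(placeRel_iff930 s w w').1 h]
  have key := isHeckeEigenAt_comp_glAdeleEquiv930 s.σ.symm w φ a b
  have e1 : (fun g => φ (glAdeleEquiv930 s.σ.symm g)) = Rsig s φ := by
    funext g
    show φ (glAdeleEquiv930 s.σ.symm g) = φ (s.onGinv g)
    rw [onGinv_eq_glAdeleEquiv930]
  rw [e1] at key
  exact key

/-- If `σ` fixes the place `w`, `R(σ)` preserves the Hecke eigenfunctions at `w`. -/
theorem isHeckeEigenAt_Rsig_of_fixed930 (s : AdelicAut K) {w : HeightOneSpectrum (𝓞 K)}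
    (h : PlaceRel s w w) {φ : G K → ℂ} {a b : ℂ} (hφ : IsHeckeEigenAt φ w a b) :
    IsHeckeEigenAt (Rsig s φ) w a b :=
  (isHeckeEigenAt_Rsig930 s h φ a b).2 hφ

end Fermat.Agent.LT.T1.H930
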