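import Fermat.Agent.LT.T1.H930.AdeleAutGL

/-!
# Row LT, tower T1 (pre-leaf T1.AUT part 3, helper930): archimedean and Hecke transport

OFF-MAIN.  Imports part 2 (hence Mathlib, part 1 and helper556's frozen `A0.lean`) only.

For `e : K ≃+* L` (in particular `σ : K ≃+* K`) and `gl = glAdeleEquiv930 e`:

* `infConj930 e w : ℂ →+* ℂ` is the identity or the complex conjugation, with
  `extensionEmbedding_infMapHom930 :
     extensionEmbedding w (infMapHom930 e w x) = infConj930 e w (extensionEmbedding (e⁻¹w) x)`
  and `infComp_glAdeleEquiv930 : infComp w (gl g) = (infComp (e⁻¹w) g).map (infConj930 e w)`;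
* `isArchCompact_glAdeleEquiv930`, `isArchPosScalar_glAdeleEquiv930`, `isReal_infPull930`;
* `absNorm_finPull930`, `valued_det_finComp_glAdeleEquiv930`, `isHeckeCosetSystem_map930`,
  `isScalarUniformizerAt_glAdeleEquiv930`;
* `isHeckeEigenAt_comp_glAdeleEquiv930 :
     IsHeckeEigenAt (φ ∘ gl) (e⁻¹ w) a b ↔ IsHeckeEigenAt φ w a b`.
-/

set_option autoImplicit false

open IsDedekindDomain NumberField InfinitePlace
open scoped MatrixGroups ComplexConjugate

noncomputable section

namespace Fermat.Agent.LT.T1.H930

open Fermat.Agent.LT.H556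

variable {K L : Type} [Field K] [NumberField K] [Field L] [NumberField L]

/-! ## The embeddings at the infinite places -/

omit [NumberField K] [NumberField L] in
theorem infPull930_eq_mk (e : K ≃+* L) (w : InfinitePlace L) :
    infPull930 e w = InfinitePlace.mk (w.embedding.comp (e : K →+* L)) := by
  unfold infPull930
  conv_lhs => rw [← mk_embedding w]
  rfl

/-- The identity or the complex conjugation: the discrepancy between the chosen embedding of
the place `e⁻¹ w` and the embedding `w.embedding ∘ e`. -/
def infConj930 (e : K ≃+* L) (w : InfinitePlace L) : ℂ →+* ℂ :=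
  open scoped Classical in
  if (infPull930 e w).embedding = w.embedding.comp (e : K →+* L) then RingHom.id ℂ
  else starRingEnd ℂ

omit [NumberField K] [NumberField L] in
theorem infConj930_eq (e : K ≃+* L) (w : InfinitePlace L) :
    infConj930 e w = RingHom.id ℂ ∨ infConj930 e w = starRingEnd ℂ := by
  unfold infConj930
  split_ifs
  · exact Or.inl rfl
  · exact Or.inr rfl

omit [NumberField K] [NumberField L] in
theorem infConj930_embedding (e : K ≃+* L) (w : InfinitePlace L) (k : K) :
    infConj930 e w ((infPull930 e w).embedding k) = w.embedding (e k) := by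
  unfold infConj930
  split_ifs with h
  · rw [h]; rfl
  · have h2 := embedding_mk_eq (w.embedding.comp (e : K →+* L))
    rw [← infPull930_eq_mk] at h2
    rcases h2 with h2 | h2
    · exact absurd h2 h
    · rw [h2]
      simp [ComplexEmbedding.conjugate_coe_eq]

omit [NumberField K] [NumberField L] in
theorem continuous_infConj930 (e : K ≃+* L) (w : InfinitePlace L) :
    Continuous (infConj930 e w) := by
  rcases infConj930_eq e w with h | h <;> rw [h]
  · exact continuous_id
  · exact Complex.continuous_conj

omit [NumberField K] [NumberField L] in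
theorem infConj930_injective (e : K ≃+* L) (w : InfinitePlace L) :
    Function.Injective (infConj930 e w) :=
  (infConj930 e w).injective

omit [NumberField K] [NumberField L] in
theorem infConj930_ofReal (e : K ≃+* L) (w : InfinitePlace L) (r : ℝ) :
    infConj930 e w (r : ℂ) = (r : ℂ) := by
  rcases infConj930_eq e w with h | h <;> rw [h]
  · rfl
  · exact Complex.conj_ofReal r

omit [NumberField K] [NumberField L] in
theorem infConj930_conj (e : K ≃+* L) (w : InfinitePlace L) (z : ℂ) :
    infConj930 e w (conj z) = conj (infConj930 e w z) := by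
  rcases infConj930_eq e w with h | h
  · rw [h]; rfl
  · rw [h]

omit [NumberField K] [NumberField L] in
theorem extensionEmbedding_infMapHom930 (e : K ≃+* L) (w : InfinitePlace L)
    (x : (infPull930 e w).Completion) :
    Completion.extensionEmbedding w (infMapHom930 e w x)
      = infConj930 e w (Completion.extensionEmbedding (infPull930 e w) x) := by
  have hcl : IsClosed {x : (infPull930 e w).Completion |
      Completion.extensionEmbedding w (infMapHom930 e w x)
        = infConj930 e w (Completion.extensionEmbedding (infPull930 e w) x)} :=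
    isClosed_eq
      ((Completion.isometry_extensionEmbedding w).continuous.comp (continuous_infMapHom930 e w))
      ((continuous_infConj930 e w).comp
        (Completion.isometry_extensionEmbedding (infPull930 e w)).continuous)
  refine Completion.induction_on (infPull930 e w) (p := fun x =>
    Completion.extensionEmbedding w (infMapHom930 e w x)
      = infConj930 e w (Completion.extensionEmbedding (infPull930 e w) x)) x hcl ?_
  intro a
  have h1 := infMapHom930_coe e w a.ofAbs
  have h2 : Completion.extensionEmbedding w (((e a.ofAbs : L) : w.Completion))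
      = w.embedding (e a.ofAbs) := Completion.extensionEmbedding_coe w (WithAbs.toAbs _ (e a.ofAbs))
  have h3 : Completion.extensionEmbedding (infPull930 e w) ((a.ofAbs : K) : (infPull930 e w).Completion)
      = (infPull930 e w).embedding a.ofAbs :=
    Completion.extensionEmbedding_coe (infPull930 e w) (WithAbs.toAbs _ a.ofAbs)
  show Completion.extensionEmbedding w (infMapHom930 e w ((a.ofAbs : K) : (infPull930 e w).Completion))
    = infConj930 e w (Completion.extensionEmbedding (infPull930 e w)
        ((a.ofAbs : K) : (infPull930 e w).Completion))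
  rw [h1, h2, h3, infConj930_embedding]

theorem infComp_glAdeleEquiv930 (e : K ≃+* L) (w : InfinitePlace L) (g : A0.G K) :
    A0.infComp w (glAdeleEquiv930 e g)
      = (A0.infComp (infPull930 e w) g).map (infConj930 e w) := by
  refine Matrix.ext fun i j => ?_
  rw [Matrix.map_apply]
  unfold A0.infComp
  rw [glAdeleEquiv930_val, adeleEquiv930_fst]
  exact extensionEmbedding_infMapHom930 e w _


/-! ## Archimedean predicates -/

omit [NumberField K] [NumberField L] in
theorem map_infConj930_eq_one_iff (e : K ≃+* L) (w : InfinitePlace L)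
    (M : Matrix (Fin 2) (Fin 2) ℂ) : M.map (infConj930 e w) = 1 ↔ M = 1 := by
  constructor
  · intro h
    refine Matrix.ext fun i j => ?_
    have := congrFun (congrFun h i) j
    rw [Matrix.map_apply] at this
    apply infConj930_injective e w
    rw [this, Matrix.one_apply]
    split_ifs <;> simp
  · intro h
    rw [h]
    refine Matrix.ext fun i j => ?_
    rw [Matrix.map_apply, Matrix.one_apply]
    split_ifs <;> simp

omit [NumberField K] [NumberField L] in
theorem map_infConj930_mul_conjTranspose (e : K ≃+* L) (w : InfinitePlace L)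
    (M : Matrix (Fin 2) (Fin 2) ℂ) :
    M.map (infConj930 e w) * (M.map (infConj930 e w)).conjTranspose
      = (M * M.conjTranspose).map (infConj930 e w) := by
  rw [Matrix.map_mul]
  congr 1
  refine Matrix.ext fun i j => ?_
  simp only [Matrix.conjTranspose_apply, Matrix.map_apply]
  exact (infConj930_conj e w (M j i)).symm

omit [NumberField K] [NumberField L] in
theorem det_map_infConj930 (e : K ≃+* L) (w : InfinitePlace L)
    (M : Matrix (Fin 2) (Fin 2) ℂ) :
    (M.map (infConj930 e w)).det = infConj930 e w M.det :=
  (RingHom.map_det (infConj930 e w) M).symm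

omit [NumberField K] [NumberField L] in
theorem isReal_infPull930 (e : K ≃+* L) (w : InfinitePlace L) :
    (infPull930 e w).IsReal ↔ w.IsReal :=
  isReal_comap_iff e

theorem isArchCompact_glAdeleEquiv930 (e : K ≃+* L) (w : InfinitePlace L) (k : A0.G K) :
    A0.IsArchCompact w (glAdeleEquiv930 e k) ↔ A0.IsArchCompact (infPull930 e w) k := by
  unfold A0.IsArchCompact
  rw [isLocalAtInf_glAdeleEquiv930, infComp_glAdeleEquiv930, map_infConj930_mul_conjTranspose,
    map_infConj930_eq_one_iff, det_map_infConj930, isReal_infPull930]
  have h1 : infConj930 e w (A0.infComp (infPull930 e w) k).det = 1 ↔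
      (A0.infComp (infPull930 e w) k).det = 1 := by
    constructor
    · intro h
      apply infConj930_injective e w
      rw [h, map_one]
    · intro h
      rw [h, map_one]
  rw [h1]

omit [NumberField K] [NumberField L] in
theorem map_infConj930_eq_diagonal_iff (e : K ≃+* L) (w : InfinitePlace L)
    (M : Matrix (Fin 2) (Fin 2) ℂ) (r : ℝ) :
    M.map (infConj930 e w) = Matrix.diagonal (fun _ => (r : ℂ)) ↔
      M = Matrix.diagonal (fun _ => (r : ℂ)) := by
  constructor
  · intro h
    refine Matrix.ext fun i j => ?_
    have := congrFun (congrFun h i) j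
    rw [Matrix.map_apply] at this
    apply infConj930_injective e w
    rw [this, Matrix.diagonal_apply]
    split_ifs
    · exact (infConj930_ofReal e w r).symm
    · simp
  · intro h
    rw [h]
    refine Matrix.ext fun i j => ?_
    rw [Matrix.map_apply, Matrix.diagonal_apply]
    split_ifs
    · exact infConj930_ofReal e w r
    · simp

theorem isArchPosScalar_glAdeleEquiv930 (e : K ≃+* L) (w : InfinitePlace L) (z : A0.G K) :
    A0.IsArchPosScalar w (glAdeleEquiv930 e z) ↔ A0.IsArchPosScalar (infPull930 e w) z := by
  unfold A0.IsArchPosScalar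
  rw [isLocalAtInf_glAdeleEquiv930, infComp_glAdeleEquiv930]
  simp only [map_infConj930_eq_diagonal_iff]


/-! ## Hecke operators -/

theorem absNorm_finPull930 (e : K ≃+* L) (w : HeightOneSpectrum (𝓞 L)) :
    Ideal.absNorm (finPull930 e w).asIdeal = Ideal.absNorm w.asIdeal := by
  have h : w.asIdeal = (finPull930 e w).asIdeal.map (RingOfIntegers.mapRingEquiv e) := by
    show w.asIdeal = (w.asIdeal.comap (RingOfIntegers.mapRingEquiv e : 𝓞 K →+* 𝓞 L)).map
      (RingOfIntegers.mapRingEquiv e)
    exact (Ideal.map_comap_of_surjective _ (RingOfIntegers.mapRingEquiv e).surjective _).symm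
  rw [Ideal.absNorm_apply, Ideal.absNorm_apply, Submodule.cardQuot_apply,
    Submodule.cardQuot_apply]
  exact Nat.card_congr
    (Ideal.quotientEquiv (finPull930 e w).asIdeal w.asIdeal (RingOfIntegers.mapRingEquiv e)
      h).toEquiv

theorem valued_det_finComp_glAdeleEquiv930 (e : K ≃+* L) (w : HeightOneSpectrum (𝓞 L))
    (g : A0.G K) :
    Valued.v (A0.finComp w (glAdeleEquiv930 e g)).det
      = Valued.v (A0.finComp (finPull930 e w) g).det := by
  rw [finComp_glAdeleEquiv930]
  have : ((A0.finComp (finPull930 e w) g).map (finMapEquiv930 e w)).det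
      = finMapEquiv930 e w (A0.finComp (finPull930 e w) g).det :=
    (RingHom.map_det (finMapEquiv930 e w).toRingHom _).symm
  rw [this, valued_finMapEquiv930]

theorem isHeckeCosetSystem_map930 (e : K ≃+* L) (w : HeightOneSpectrum (𝓞 L))
    (H : Finset (A0.G K)) :
    A0.IsHeckeCosetSystem w (H.map (glAdeleEquiv930 e).toEquiv.toEmbedding) ↔
      A0.IsHeckeCosetSystem (finPull930 e w) H := by
  unfold A0.IsHeckeCosetSystem
  rw [Finset.card_map, absNorm_finPull930]
  refine and_congr Iff.rfl (and_congr ?_ ?_)
  · constructor
    · intro h x hx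
      have := h (glAdeleEquiv930 e x) (Finset.mem_map_of_mem _ hx)
      rwa [isLocalAtFin_glAdeleEquiv930, isIntegralAt_glAdeleEquiv930,
        valued_det_finComp_glAdeleEquiv930] at this
    · intro h y hy
      obtain ⟨x, hx, rfl⟩ := Finset.mem_map.1 hy
      show A0.IsLocalAtFin w (glAdeleEquiv930 e x) ∧ A0.IsIntegralAt w (glAdeleEquiv930 e x) ∧
        Valued.v (A0.finComp w (glAdeleEquiv930 e x)).det = WithZero.exp (-1 : ℤ)
      rw [isLocalAtFin_glAdeleEquiv930, isIntegralAt_glAdeleEquiv930,
        valued_det_finComp_glAdeleEquiv930]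
      exact h x hx
  · constructor
    · intro h x hx x' hx' hne hint
      refine h (glAdeleEquiv930 e x) (Finset.mem_map_of_mem _ hx) (glAdeleEquiv930 e x')
        (Finset.mem_map_of_mem _ hx') (fun hh => hne ((glAdeleEquiv930 e).injective hh)) ?_
      rw [← map_inv, ← map_mul, isIntegralAt_glAdeleEquiv930]
      exact hint
    · intro h y hy y' hy' hne hint
      obtain ⟨x, hx, rfl⟩ := Finset.mem_map.1 hy
      obtain ⟨x', hx', rfl⟩ := Finset.mem_map.1 hy'
      refine h x hx x' hx' (fun hh => hne (by rw [hh])) ?_
      have hint' : A0.IsIntegralAt w ((glAdeleEquiv930 e x)⁻¹ * glAdeleEquiv930 e x') := hint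
      rwa [← map_inv, ← map_mul, isIntegralAt_glAdeleEquiv930] at hint'

theorem isScalarUniformizerAt_glAdeleEquiv930 (e : K ≃+* L) (w : HeightOneSpectrum (𝓞 L))
    (z : A0.G K) :
    A0.IsScalarUniformizerAt w (glAdeleEquiv930 e z) ↔
      A0.IsScalarUniformizerAt (finPull930 e w) z := by
  unfold A0.IsScalarUniformizerAt
  rw [isLocalAtFin_glAdeleEquiv930, finComp_glAdeleEquiv930]
  refine and_congr Iff.rfl ?_
  constructor
  · rintro ⟨c, hc, h⟩
    refine ⟨(finMapEquiv930 e w).symm c, ?_, ?_⟩
    · rw [← valued_finMapEquiv930 e w, RingEquiv.apply_symm_apply]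
      exact hc
    · refine Matrix.ext fun i j => ?_
      have := congrFun (congrFun h i) j
      rw [Matrix.map_apply] at this
      apply (finMapEquiv930 e w).injective
      rw [this, Matrix.diagonal_apply, Matrix.diagonal_apply]
      split_ifs <;> simp
  · rintro ⟨c, hc, h⟩
    refine ⟨finMapEquiv930 e w c, ?_, ?_⟩
    · rw [valued_finMapEquiv930]
      exact hc
    · rw [h]
      refine Matrix.ext fun i j => ?_
      rw [Matrix.map_apply, Matrix.diagonal_apply, Matrix.diagonal_apply]
      split_ifs <;> simp

/-- Transport of Hecke eigenfunctions: `φ` on `GL₂(𝔸_L)` is a Hecke eigenfunction at `w` iff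
`φ ∘ glAdeleEquiv930 e` on `GL₂(𝔸_K)` is one at the place `e⁻¹ w`, with the same eigenvalues. -/
theorem isHeckeEigenAt_comp_glAdeleEquiv930 (e : K ≃+* L) (w : HeightOneSpectrum (𝓞 L))
    (φ : A0.G L → ℂ) (a b : ℂ) :
    A0.IsHeckeEigenAt (fun g => φ (glAdeleEquiv930 e g)) (finPull930 e w) a b ↔
      A0.IsHeckeEigenAt φ w a b := by
  unfold A0.IsHeckeEigenAt
  rw [absNorm_finPull930]
  refine and_congr ?_ ?_
  · constructor
    · intro h H' hH' g'
      set H : Finset (A0.G K) := H'.map (glAdeleEquiv930 e.symm).toEquiv.toEmbedding with hHdef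
      have hmap : H.map (glAdeleEquiv930 e).toEquiv.toEmbedding = H' := by
        rw [hHdef, Finset.map_map]
        have : ((glAdeleEquiv930 e.symm).toEquiv.toEmbedding.trans
            (glAdeleEquiv930 e).toEquiv.toEmbedding) = Function.Embedding.refl _ := by
          ext x
          exact congrArg (fun m : A0.G L => (m : Matrix (Fin 2) (Fin 2) (A0.Adl L)) _ _)
            (glAdeleEquiv930_apply_symm_apply e x)
        rw [this, Finset.map_refl]
      have hH : A0.IsHeckeCosetSystem (finPull930 e w) H := by
        rw [← isHeckeCosetSystem_map930, hmap]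
        exact hH'
      have := h H hH (glAdeleEquiv930 e.symm g')
      beta_reduce at this
      rw [glAdeleEquiv930_apply_symm_apply] at this
      rw [← this]
      conv_lhs => rw [← hmap, Finset.sum_map]
      refine Finset.sum_congr rfl fun x _ => ?_
      show φ (g' * glAdeleEquiv930 e x) = φ (glAdeleEquiv930 e (glAdeleEquiv930 e.symm g' * x))
      rw [map_mul, glAdeleEquiv930_apply_symm_apply]
    · intro h H hH g
      have hH' : A0.IsHeckeCosetSystem w (H.map (glAdeleEquiv930 e).toEquiv.toEmbedding) :=
        (isHeckeCosetSystem_map930 e w H).2 hH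
      have := h _ hH' (glAdeleEquiv930 e g)
      rw [Finset.sum_map] at this
      beta_reduce
      rw [← this]
      refine Finset.sum_congr rfl fun x _ => ?_
      show φ (glAdeleEquiv930 e (g * x)) = φ (glAdeleEquiv930 e g * glAdeleEquiv930 e x)
      rw [map_mul]
  · constructor
    · intro h z' hz' g'
      have hz : A0.IsScalarUniformizerAt (finPull930 e w) (glAdeleEquiv930 e.symm z') := by
        rw [← isScalarUniformizerAt_glAdeleEquiv930, glAdeleEquiv930_apply_symm_apply]
        exact hz'
      have := h _ hz (glAdeleEquiv930 e.symm g')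
      beta_reduce at this
      rw [map_mul, glAdeleEquiv930_apply_symm_apply, glAdeleEquiv930_apply_symm_apply] at this
      exact this
    · intro h z hz g
      have := h _ ((isScalarUniformizerAt_glAdeleEquiv930 e w z).2 hz) (glAdeleEquiv930 e g)
      beta_reduce
      rw [map_mul]
      exact this

end Fermat.Agent.LT.T1.H930
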