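import Fermat.Agent.LT.T1.H930.AdeleAut
import Fermat.Agent.LT.H556.A0

/-!
# Row LT, tower T1 (pre-leaf T1.AUT part 2, helper930): the automorphism on `GL₂(𝔸_K)`

OFF-MAIN.  Imports Mathlib, `AdeleAut.lean` (part 1) and helper556's frozen `A0.lean` only.

For `e : K ≃+* L` (in particular `σ : K ≃+* K`):

* `glAdeleEquiv930 e : A0.G K ≃* A0.G L`, continuous both ways (`glAdeleHomeo930`), compatible with
  the rational points (`glAdeleEquiv930_map_algebraMap`);
* finite places: `finComp_glAdeleEquiv930`, `trivAtFin_…`, `isLocalAtFin_…`, `isIntegralAt_…`,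
  `image_idealClosure930`, and the level group
  `inLevelGroup_glAdeleEquiv930 : InLevelGroup (𝔫.map e) (glAdeleEquiv930 e u) ↔ InLevelGroup 𝔫 u`;
* infinite places: `trivAtInf_…`, `isLocalAtInf_…`;
* the bijections of places `finPullEquiv930`, `infPullEquiv930`.
-/

set_option autoImplicit false

open IsDedekindDomain NumberField InfinitePlace
open scoped MatrixGroups

noncomputable section

namespace Fermat.Agent.LT.T1.H930

open Fermat.Agent.LT.H556

variable {K L : Type} [Field K] [NumberField K] [Field L] [NumberField L]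

/-- The isomorphism `GL₂(𝔸_K) ≃* GL₂(𝔸_L)` induced by `e : K ≃+* L`. -/
def glAdeleEquiv930 (e : K ≃+* L) : A0.G K ≃* A0.G L :=
  Units.mapEquiv (RingEquiv.mapMatrix (adeleEquiv930 e)).toMulEquiv

theorem glAdeleEquiv930_val (e : K ≃+* L) (g : A0.G K) (i j : Fin 2) :
    ((glAdeleEquiv930 e g : A0.G L) : Matrix (Fin 2) (Fin 2) (A0.Adl L)) i j
      = adeleEquiv930 e ((g : Matrix (Fin 2) (Fin 2) (A0.Adl K)) i j) := rfl

theorem glAdeleEquiv930_symm (e : K ≃+* L) :
    (glAdeleEquiv930 e).symm = glAdeleEquiv930 e.symm := rfl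

theorem glAdeleEquiv930_symm_apply_apply (e : K ≃+* L) (g : A0.G K) :
    glAdeleEquiv930 e.symm (glAdeleEquiv930 e g) = g :=
  (glAdeleEquiv930 e).symm_apply_apply g

theorem glAdeleEquiv930_apply_symm_apply (e : K ≃+* L) (g : A0.G L) :
    glAdeleEquiv930 e (glAdeleEquiv930 e.symm g) = g :=
  (glAdeleEquiv930 e).apply_symm_apply g

theorem glAdeleEquiv930_inv_val (e : K ≃+* L) (g : A0.G K) (i j : Fin 2) :
    (((glAdeleEquiv930 e g)⁻¹ : A0.G L) : Matrix (Fin 2) (Fin 2) (A0.Adl L)) i j
      = adeleEquiv930 e (((g⁻¹ : A0.G K) : Matrix (Fin 2) (Fin 2) (A0.Adl K)) i j) := by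
  rw [← map_inv]
  rfl

theorem continuous_glAdeleEquiv930 (e : K ≃+* L) : Continuous (glAdeleEquiv930 e) := by
  rw [Units.continuous_iff]
  constructor
  · refine continuous_matrix fun i j => ?_
    exact (continuous_adeleEquiv930 e).comp
      ((Continuous.matrix_elem continuous_id i j).comp Units.continuous_val)
  · refine continuous_matrix fun i j => ?_
    have h : (fun g : A0.G K =>
        (((glAdeleEquiv930 e g)⁻¹ : A0.G L) : Matrix (Fin 2) (Fin 2) (A0.Adl L)) i j)
        = fun g => adeleEquiv930 e (((g⁻¹ : A0.G K) : Matrix (Fin 2) (Fin 2) (A0.Adl K)) i j) :=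
      funext fun g => glAdeleEquiv930_inv_val e g i j
    rw [h]
    exact (continuous_adeleEquiv930 e).comp
      ((Continuous.matrix_elem continuous_id i j).comp Units.continuous_coe_inv)

/-- `glAdeleEquiv930 e` as a homeomorphism. -/
def glAdeleHomeo930 (e : K ≃+* L) : A0.G K ≃ₜ A0.G L where
  toEquiv := (glAdeleEquiv930 e).toEquiv
  continuous_toFun := continuous_glAdeleEquiv930 e
  continuous_invFun := continuous_glAdeleEquiv930 e.symm

theorem glAdeleEquiv930_map_algebraMap (e : K ≃+* L) (γ : GL (Fin 2) K) :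
    glAdeleEquiv930 e (Matrix.GeneralLinearGroup.map (algebraMap K (A0.Adl K)) γ)
      = Matrix.GeneralLinearGroup.map (algebraMap L (A0.Adl L))
          (Matrix.GeneralLinearGroup.map (e : K →+* L) γ) := by
  apply Units.ext
  ext i j
  rw [glAdeleEquiv930_val]
  exact adeleEquiv930_algebraMap e _

theorem finComp_glAdeleEquiv930 (e : K ≃+* L) (w : HeightOneSpectrum (𝓞 L)) (g : A0.G K) :
    A0.finComp w (glAdeleEquiv930 e g)
      = (A0.finComp (finPull930 e w) g).map (finMapEquiv930 e w) := rfl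


/-! ## Places -/

omit [NumberField K] [NumberField L] in
theorem finPull930_symm (e : K ≃+* L) (v : HeightOneSpectrum (𝓞 K)) :
    finPull930 e (finPull930 e.symm v) = v :=
  (HeightOneSpectrum.equivOfRingEquiv (RingOfIntegers.mapRingEquiv e)).symm_apply_apply v

omit [NumberField K] [NumberField L] in
theorem finPull930_symm' (e : K ≃+* L) (w : HeightOneSpectrum (𝓞 L)) :
    finPull930 e.symm (finPull930 e w) = w :=
  finPull930_symm e.symm w

omit [NumberField K] [NumberField L] in
theorem infPull930_symm' (e : K ≃+* L) (w : InfinitePlace L) :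
    infPull930 e.symm (infPull930 e w) = w :=
  infPull930_symm e.symm w

/-- Pulling back finite places along `e` is a bijection. -/
def finPullEquiv930 (e : K ≃+* L) : HeightOneSpectrum (𝓞 L) ≃ HeightOneSpectrum (𝓞 K) where
  toFun := finPull930 e
  invFun := finPull930 e.symm
  left_inv := finPull930_symm' e
  right_inv := finPull930_symm e

/-- Pulling back infinite places along `e` is a bijection. -/
def infPullEquiv930 (e : K ≃+* L) : InfinitePlace L ≃ InfinitePlace K where
  toFun := infPull930 e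
  invFun := infPull930 e.symm
  left_inv := infPull930_symm' e
  right_inv := infPull930_symm e

/-! ## Local triviality, integrality -/

omit [NumberField K] [NumberField L] in
theorem infMapHom930_injective (e : K ≃+* L) (w : InfinitePlace L) :
    Function.Injective (infMapHom930 e w) :=
  (isometry_infMapHom930 e w).injective

theorem trivAtFin_glAdeleEquiv930 (e : K ≃+* L) (w : HeightOneSpectrum (𝓞 L)) (g : A0.G K) :
    A0.TrivAtFin w (glAdeleEquiv930 e g) ↔ A0.TrivAtFin (finPull930 e w) g := by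
  unfold A0.TrivAtFin
  rw [finComp_glAdeleEquiv930]
  constructor
  · intro h
    refine Matrix.ext fun i j => ?_
    have := congrFun (congrFun h i) j
    rw [Matrix.map_apply] at this
    apply (finMapEquiv930 e w).injective
    rw [this, Matrix.one_apply, Matrix.one_apply]
    split_ifs <;> simp
  · intro h
    rw [h]
    refine Matrix.ext fun i j => ?_
    rw [Matrix.map_apply, Matrix.one_apply, Matrix.one_apply]
    split_ifs <;> simp

theorem trivAtInf_glAdeleEquiv930 (e : K ≃+* L) (w : InfinitePlace L) (g : A0.G K) :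
    A0.TrivAtInf w (glAdeleEquiv930 e g) ↔ A0.TrivAtInf (infPull930 e w) g := by
  unfold A0.TrivAtInf
  refine forall_congr' fun i => forall_congr' fun j => ?_
  rw [glAdeleEquiv930_val, adeleEquiv930_fst]
  constructor
  · intro h
    apply infMapHom930_injective e w
    rw [h, Matrix.one_apply, Matrix.one_apply]
    split_ifs <;> simp
  · intro h
    rw [h, Matrix.one_apply, Matrix.one_apply]
    split_ifs <;> simp

theorem isLocalAtFin_glAdeleEquiv930 (e : K ≃+* L) (w : HeightOneSpectrum (𝓞 L)) (g : A0.G K) :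
    A0.IsLocalAtFin w (glAdeleEquiv930 e g) ↔ A0.IsLocalAtFin (finPull930 e w) g := by
  unfold A0.IsLocalAtFin
  constructor
  · rintro ⟨h1, h2⟩
    refine ⟨fun v => ?_, fun v hv => ?_⟩
    · have := (trivAtInf_glAdeleEquiv930 e (infPull930 e.symm v) g).1 (h1 _)
      rwa [infPull930_symm] at this
    · have := (trivAtFin_glAdeleEquiv930 e (finPull930 e.symm v) g).1
        (h2 _ fun h => hv (by rw [← h, finPull930_symm]))
      rwa [finPull930_symm] at this
  · rintro ⟨h1, h2⟩
    refine ⟨fun v => (trivAtInf_glAdeleEquiv930 e v g).2 (h1 _), fun v hv =>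
      (trivAtFin_glAdeleEquiv930 e v g).2 (h2 _ fun h => hv ?_)⟩
    exact (finPull930_injective e) h

theorem isLocalAtInf_glAdeleEquiv930 (e : K ≃+* L) (w : InfinitePlace L) (g : A0.G K) :
    A0.IsLocalAtInf w (glAdeleEquiv930 e g) ↔ A0.IsLocalAtInf (infPull930 e w) g := by
  unfold A0.IsLocalAtInf
  constructor
  · rintro ⟨h1, h2⟩
    refine ⟨fun v hv => ?_, fun v => ?_⟩
    · have := (trivAtInf_glAdeleEquiv930 e (infPull930 e.symm v) g).1
        (h1 _ fun h => hv (by rw [← h, infPull930_symm]))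
      rwa [infPull930_symm] at this
    · have := (trivAtFin_glAdeleEquiv930 e (finPull930 e.symm v) g).1 (h2 _)
      rwa [finPull930_symm] at this
  · rintro ⟨h1, h2⟩
    refine ⟨fun v hv => (trivAtInf_glAdeleEquiv930 e v g).2 (h1 _ fun h => hv ?_), fun v =>
      (trivAtFin_glAdeleEquiv930 e v g).2 (h2 _)⟩
    exact (infPullEquiv930 e).injective h

theorem isIntegralAt_glAdeleEquiv930 (e : K ≃+* L) (w : HeightOneSpectrum (𝓞 L)) (g : A0.G K) :
    A0.IsIntegralAt w (glAdeleEquiv930 e g) ↔ A0.IsIntegralAt (finPull930 e w) g := by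
  unfold A0.IsIntegralAt
  refine forall_congr' fun i => forall_congr' fun j => ?_
  rw [finComp_glAdeleEquiv930, Matrix.map_apply]
  exact finMapEquiv930_mem_integers e w _


/-! ## The level group -/

theorem continuous_finMapEquiv930_symm (e : K ≃+* L) (w : HeightOneSpectrum (𝓞 L)) :
    Continuous (finMapEquiv930 e w).symm :=
  (HeightOneSpectrum.adicCompletion.continuous_ofCompletion K (finPull930 e w)).comp
    (UniformSpace.Completion.continuous_map.comp
      (HeightOneSpectrum.adicCompletion.continuous_toCompletion L w))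

/-- `finMapEquiv930 e w` as a homeomorphism. -/
def finMapHomeo930 (e : K ≃+* L) (w : HeightOneSpectrum (𝓞 L)) :
    (finPull930 e w).adicCompletion K ≃ₜ w.adicCompletion L where
  toEquiv := (finMapEquiv930 e w).toEquiv
  continuous_toFun := continuous_finMapEquiv930 e w
  continuous_invFun := continuous_finMapEquiv930_symm e w

theorem finMapEquiv930_algebraMap (e : K ≃+* L) (w : HeightOneSpectrum (𝓞 L)) (k : K) :
    finMapEquiv930 e w (algebraMap K ((finPull930 e w).adicCompletion K) k)
      = algebraMap L (w.adicCompletion L) (e k) :=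
  finMapEquiv930_coe e w k

theorem image_idealGen930 (e : K ≃+* L) (𝔫 : Ideal (𝓞 K)) (w : HeightOneSpectrum (𝓞 L)) :
    finMapEquiv930 e w ''
        ((fun x : 𝓞 K => algebraMap K ((finPull930 e w).adicCompletion K)
          (algebraMap (𝓞 K) K x)) '' (𝔫 : Set (𝓞 K)))
      = (fun y : 𝓞 L => algebraMap L (w.adicCompletion L) (algebraMap (𝓞 L) L y)) ''
          ((𝔫.map (RingOfIntegers.mapRingEquiv e) : Ideal (𝓞 L)) : Set (𝓞 L)) := by
  ext z
  constructor
  · rintro ⟨_, ⟨x, hx, rfl⟩, rfl⟩
    refine ⟨RingOfIntegers.mapRingEquiv e x, ?_, ?_⟩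
    · exact Ideal.mem_map_of_mem _ hx
    · rw [finMapEquiv930_algebraMap]
      rfl
  · rintro ⟨y, hy, rfl⟩
    obtain ⟨x, hx, rfl⟩ := (Ideal.mem_map_of_equiv (RingOfIntegers.mapRingEquiv e) y).1 hy
    refine ⟨_, ⟨x, hx, rfl⟩, ?_⟩
    rw [finMapEquiv930_algebraMap]
    rfl

theorem image_idealClosure930 (e : K ≃+* L) (𝔫 : Ideal (𝓞 K)) (w : HeightOneSpectrum (𝓞 L)) :
    finMapEquiv930 e w '' A0.idealClosure 𝔫 (finPull930 e w)
      = A0.idealClosure (𝔫.map (RingOfIntegers.mapRingEquiv e)) w := by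
  unfold A0.idealClosure
  rw [← image_idealGen930 e 𝔫 w]
  exact (finMapHomeo930 e w).image_closure _

theorem mem_idealClosure_map930 (e : K ≃+* L) (𝔫 : Ideal (𝓞 K)) (w : HeightOneSpectrum (𝓞 L))
    (x : (finPull930 e w).adicCompletion K) :
    finMapEquiv930 e w x ∈ A0.idealClosure (𝔫.map (RingOfIntegers.mapRingEquiv e)) w ↔
      x ∈ A0.idealClosure 𝔫 (finPull930 e w) := by
  rw [← image_idealClosure930 e 𝔫 w]
  exact (finMapEquiv930 e w).injective.mem_set_image

theorem finComp_inv_glAdeleEquiv930 (e : K ≃+* L) (w : HeightOneSpectrum (𝓞 L)) (g : A0.G K) :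
    A0.finComp w (glAdeleEquiv930 e g)⁻¹
      = (A0.finComp (finPull930 e w) g⁻¹).map (finMapEquiv930 e w) := by
  rw [← map_inv]
  rfl

/-- `glAdeleEquiv930 e` carries the principal congruence subgroup `U(𝔫)` onto `U(e 𝔫)`. -/
theorem inLevelGroup_glAdeleEquiv930 (e : K ≃+* L) (𝔫 : Ideal (𝓞 K)) (u : A0.G K) :
    A0.InLevelGroup (𝔫.map (RingOfIntegers.mapRingEquiv e)) (glAdeleEquiv930 e u) ↔
      A0.InLevelGroup 𝔫 u := by
  have key : ∀ (w : HeightOneSpectrum (𝓞 L)) (g : A0.G K) (i j : Fin 2),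
      (A0.finComp w (glAdeleEquiv930 e g) - 1) i j
          ∈ A0.idealClosure (𝔫.map (RingOfIntegers.mapRingEquiv e)) w ↔
        (A0.finComp (finPull930 e w) g - 1) i j ∈ A0.idealClosure 𝔫 (finPull930 e w) := by
    intro w g i j
    rw [← mem_idealClosure_map930 e 𝔫 w, finComp_glAdeleEquiv930, Matrix.sub_apply,
      Matrix.sub_apply, Matrix.map_apply, map_sub, Matrix.one_apply, Matrix.one_apply]
    split_ifs <;> simp
  have key' : ∀ (w : HeightOneSpectrum (𝓞 L)) (g : A0.G K) (i j : Fin 2),
      (A0.finComp w (glAdeleEquiv930 e g)⁻¹ - 1) i j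
          ∈ A0.idealClosure (𝔫.map (RingOfIntegers.mapRingEquiv e)) w ↔
        (A0.finComp (finPull930 e w) g⁻¹ - 1) i j ∈ A0.idealClosure 𝔫 (finPull930 e w) := by
    intro w g i j
    rw [← map_inv]
    exact key w g⁻¹ i j
  unfold A0.InLevelGroup
  constructor
  · rintro ⟨h1, h2⟩
    refine ⟨fun v => ?_, fun v i j => ?_⟩
    · have := (trivAtInf_glAdeleEquiv930 e (infPull930 e.symm v) u).1 (h1 _)
      rwa [infPull930_symm] at this
    · have h := h2 (finPull930 e.symm v) i j
      rw [key, key'] at h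
      rwa [finPull930_symm] at h
  · rintro ⟨h1, h2⟩
    refine ⟨fun v => (trivAtInf_glAdeleEquiv930 e v u).2 (h1 _), fun v i j => ?_⟩
    rw [key, key']
    exact h2 _ i j

end Fermat.Agent.LT.T1.H930
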