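import Fermat.Agent.LT.T1.H930.AdeleAutArch
import Fermat.Agent.LT.T5.Spec

/-!
# Row LT: the adapter AUT-PRESERVES (helper930) — `T5.AutPreserves` for every field automorphism

OFF-MAIN.  Imports parts 1–3 of T1.AUT (`AdeleAut`, `AdeleAutGL`, `AdeleAutArch`), helper556's
frozen `A0.lean` and helper32's frozen `T5/Spec.lean` v3 (sha256 d6f8b00ae5f14ad1) only.

* `adelicAut930 σ : T5.AdelicAut K` — the field automorphism `σ` with `adeleEquiv930 σ`.
* `autPreserves930` : for `σ`-stable `𝔫`, every Haar measure `μ` of `GL₂(𝔸_K)` and every ray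
  generator `r`:  `T5.AutPreserves (adelicAut930 σ) 𝔫 μ r`
  (hypotheses: `LocallyCompactSpace (G K)`, `SecondCountableTopology (G K)` = part of `T1.LocCompC`).
  - `measure` : the Haar character `σ ↦ mulEquivHaarChar (glAdeleCME930 σ)` is a character of
    the FINITE group `Aut(K)` with values in `ℝ≥0`, hence trivial (`haarCharHom930`,
    `mulEquivHaarChar_glAdeleCME930`);
  - `slab` : `adNorm_adeleEquiv930 : adNorm (adeleEquiv930 σ x) = adNorm x` (the local maps are
    isometries, `N(σ⁻¹ v) = N(v)`, reindexing of the products over the places);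
  - `ray` : `glAdeleEquiv930_rayGen`; `level`, `arch` : parts 2 and 3.
* `exists_adelicAut930` : the existence form (`T1_AutExists` of the T5 interface).
-/

set_option autoImplicit false

open IsDedekindDomain NumberField InfinitePlace MeasureTheory
open scoped MatrixGroups NNReal

noncomputable section

namespace Fermat.Agent.LT.T1.H930

open Fermat.Agent.LT.H556 Fermat.Agent.LT

variable {K : Type} [Field K] [NumberField K]

/-! ## The instance of `T5.AdelicAut` -/

/-- The adelic automorphism of a field automorphism, as a `T5.AdelicAut`. -/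
def adelicAut930 (σ : K ≃+* K) : T5.AdelicAut K where
  σ := σ
  σA := adeleEquiv930 σ
  continuous_σA := continuous_adeleEquiv930 σ
  continuous_symm := continuous_adeleEquiv930 σ.symm
  compat := adeleEquiv930_algebraMap σ

theorem adelicAut930_onG (σ : K ≃+* K) (g : A0.G K) :
    (adelicAut930 σ).onG g = glAdeleEquiv930 σ g := by
  apply Units.ext
  rfl

theorem adelicAut930_onGinv (σ : K ≃+* K) (g : A0.G K) :
    (adelicAut930 σ).onGinv g = glAdeleEquiv930 σ.symm g := by
  apply Units.ext
  rfl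

/-! ## Finite order -/

instance finite_ringAut930 : Finite (K ≃+* K) := by
  obtain ⟨ι⟩ : Nonempty (K →+* ℂ) := inferInstance
  refine Finite.of_injective (fun σ : K ≃+* K => ι.comp (σ : K →+* K)) ?_
  intro σ τ h
  ext x
  have := congrArg (fun f : K →+* ℂ => f x) h
  exact ι.injective this

theorem exists_pow_eq_one930 (σ : K ≃+* K) : ∃ n : ℕ, 0 < n ∧ (σ : RingAut K) ^ n = 1 :=
  isOfFinOrder_iff_pow_eq_one.1 (isOfFinOrder_of_finite (σ : RingAut K))

/-! ## The Haar character -/

/-- `glAdeleEquiv930 σ` as a continuous multiplicative equivalence. -/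
def glAdeleCME930 (σ : K ≃+* K) : A0.G K ≃ₜ* A0.G K where
  toMulEquiv := glAdeleEquiv930 σ
  continuous_toFun := continuous_glAdeleEquiv930 σ
  continuous_invFun := continuous_glAdeleEquiv930 σ.symm

theorem glAdeleCME930_apply (σ : K ≃+* K) (g : A0.G K) :
    glAdeleCME930 σ g = glAdeleEquiv930 σ g := rfl

theorem glAdeleEquiv930_refl (g : A0.G K) : glAdeleEquiv930 (RingEquiv.refl K) g = g := by
  apply Units.ext
  refine Matrix.ext fun i j => ?_
  rw [glAdeleEquiv930_val]
  exact adeleEquiv930_refl _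

theorem glAdeleEquiv930_trans (σ τ : K ≃+* K) (g : A0.G K) :
    glAdeleEquiv930 (σ.trans τ) g = glAdeleEquiv930 τ (glAdeleEquiv930 σ g) := by
  apply Units.ext
  refine Matrix.ext fun i j => ?_
  rw [glAdeleEquiv930_val, glAdeleEquiv930_val, glAdeleEquiv930_val]
  exact adeleEquiv930_trans σ τ _

theorem glAdeleCME930_refl : glAdeleCME930 (RingEquiv.refl K) = ContinuousMulEquiv.refl (A0.G K) :=
  ContinuousMulEquiv.ext fun g => glAdeleEquiv930_refl g

theorem glAdeleCME930_trans (σ τ : K ≃+* K) :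
    glAdeleCME930 (σ.trans τ) = (glAdeleCME930 σ).trans (glAdeleCME930 τ) :=
  ContinuousMulEquiv.ext fun g => glAdeleEquiv930_trans σ τ g

section haar

variable [LocallyCompactSpace (A0.G K)]

attribute [local instance] Fermat.Agent.LT.T5.instMeasurableSpaceG

instance borelSpace_G930 : BorelSpace (A0.G K) := ⟨rfl⟩

/-- The Haar character of the action of `Aut(K)` on `GL₂(𝔸_K)`. -/
def haarCharHom930 : RingAut K →* ℝ≥0 where
  toFun σ := mulEquivHaarChar (glAdeleCME930 σ)
  map_one' := by
    show mulEquivHaarChar (glAdeleCME930 (RingEquiv.refl K)) = 1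
    rw [glAdeleCME930_refl, mulEquivHaarChar_refl]
  map_mul' σ τ := by
    show mulEquivHaarChar (glAdeleCME930 (τ.trans σ)) = _
    rw [glAdeleCME930_trans, mulEquivHaarChar_trans, mul_comm]

theorem mulEquivHaarChar_glAdeleCME930 (σ : K ≃+* K) :
    mulEquivHaarChar (glAdeleCME930 σ) = 1 := by
  obtain ⟨n, hn, h⟩ := exists_pow_eq_one930 σ
  have h1 : haarCharHom930 (σ : RingAut K) ^ n = 1 := by
    rw [← map_pow, h, map_one]
  exact (pow_eq_one_iff.1 h1).resolve_right hn.ne'

end haar


/-! ## The adelic norm -/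

theorem toNNReal_congr930 {a b : ℝ≥0} (ha : a ≠ 0) (hb : b ≠ 0) (h : a = b)
    (x : WithZero (Multiplicative ℤ)) :
    WithZeroMulInt.toNNReal ha x = WithZeroMulInt.toNNReal hb x := by
  subst h
  rfl

theorem norm_finMapEquiv930 (σ : K ≃+* K) (w : HeightOneSpectrum (𝓞 K))
    (x : (finPull930 σ w).adicCompletion K) : ‖finMapEquiv930 σ w x‖ = ‖x‖ := by
  rw [FinitePlace.norm_def, FinitePlace.norm_def, valued_finMapEquiv930]
  congr 1
  exact toNNReal_congr930 _ _ (by rw [absNorm_finPull930]) _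

omit [NumberField K] in
theorem norm_infMapHom930 (σ : K ≃+* K) (w : InfinitePlace K)
    (x : (infPull930 σ w).Completion) : ‖infMapHom930 σ w x‖ = ‖x‖ := by
  have := (isometry_infMapHom930 σ w).dist_eq x 0
  rwa [map_zero, dist_zero_right, dist_zero_right] at this

omit [NumberField K] in
theorem mult_infPull930 (σ : K ≃+* K) (w : InfinitePlace K) :
    (infPull930 σ w).mult = w.mult := by
  by_cases h : w.IsReal
  · rw [IsReal.mult_eq_one h, IsReal.mult_eq_one ((isReal_infPull930 σ w).2 h)]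
  · have h' : ¬ (infPull930 σ w).IsReal := fun hh => h ((isReal_infPull930 σ w).1 hh)
    rw [IsComplex.mult_eq_two (not_isReal_iff_isComplex.1 h),
      IsComplex.mult_eq_two (not_isReal_iff_isComplex.1 h')]

theorem adNorm_adeleEquiv930 (σ : K ≃+* K) (x : A0.Adl K) :
    T5.adNorm (adeleEquiv930 σ x) = T5.adNorm x := by
  unfold T5.adNorm
  congr 1
  · have h1 : ∀ w : InfinitePlace K, ‖(adeleEquiv930 σ x).1 w‖ ^ w.mult
        = (fun v : InfinitePlace K => ‖x.1 v‖ ^ v.mult) (infPullEquiv930 σ w) := by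
      intro w
      show ‖(adeleEquiv930 σ x).1 w‖ ^ w.mult = ‖x.1 (infPull930 σ w)‖ ^ (infPull930 σ w).mult
      rw [adeleEquiv930_fst, norm_infMapHom930, mult_infPull930]
    rw [Finset.prod_congr rfl fun w _ => h1 w]
    exact Equiv.prod_comp (infPullEquiv930 σ) (fun v : InfinitePlace K => ‖x.1 v‖ ^ v.mult)
  · have h2 : ∀ w : HeightOneSpectrum (𝓞 K), ‖(adeleEquiv930 σ x).2 w‖
        = (fun v : HeightOneSpectrum (𝓞 K) => ‖x.2 v‖) (finPullEquiv930 σ w) := by
      intro w
      show ‖(adeleEquiv930 σ x).2 w‖ = ‖x.2 (finPull930 σ w)‖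
      rw [adeleEquiv930_snd, norm_finMapEquiv930]
    rw [finprod_congr h2]
    exact finprod_comp_equiv (finPullEquiv930 σ) (f := fun v : HeightOneSpectrum (𝓞 K) => ‖x.2 v‖)

theorem det_glAdeleEquiv930 (σ : K ≃+* K) (g : A0.G K) :
    Matrix.det ((glAdeleEquiv930 σ g : A0.G K) : Matrix (Fin 2) (Fin 2) (A0.Adl K))
      = adeleEquiv930 σ (Matrix.det (g : Matrix (Fin 2) (Fin 2) (A0.Adl K))) :=
  (RingHom.map_det (adeleEquiv930 σ).toRingHom _).symm

theorem mem_slab_glAdeleEquiv930 (σ : K ≃+* K) (g : A0.G K) :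
    glAdeleEquiv930 σ g ∈ T5.slab K ↔ g ∈ T5.slab K := by
  unfold T5.slab
  simp only [Set.mem_ofPred_eq]
  rw [det_glAdeleEquiv930, adNorm_adeleEquiv930]


/-! ## The ray generator -/

theorem glAdeleEquiv930_rayGen (σ : K ≃+* K) (r : A0.G K) (hr : T5.IsRayGen r) :
    glAdeleEquiv930 σ r = r := by
  obtain ⟨hfin, t, _, _, hinf⟩ := hr
  apply Units.ext
  refine Matrix.ext fun i j => ?_
  rw [glAdeleEquiv930_val]
  refine Prod.ext (funext fun w => ?_) (FiniteAdeleRing.ext K fun v => ?_)
  · rw [adeleEquiv930_fst]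
    apply (Completion.extensionEmbedding w).injective
    rw [extensionEmbedding_infMapHom930]
    have h1 : Completion.extensionEmbedding (infPull930 σ w)
        (((r : Matrix (Fin 2) (Fin 2) (A0.Adl K)) i j).1 (infPull930 σ w))
        = A0.infComp (infPull930 σ w) r i j := rfl
    have h2 : Completion.extensionEmbedding w
        (((r : Matrix (Fin 2) (Fin 2) (A0.Adl K)) i j).1 w) = A0.infComp w r i j := rfl
    rw [h1, h2, hinf, hinf, Matrix.diagonal_apply]
    split_ifs
    · exact infConj930_ofReal σ w t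
    · exact map_zero _
  · rw [adeleEquiv930_snd]
    have h1 : ((r : Matrix (Fin 2) (Fin 2) (A0.Adl K)) i j).2 (finPull930 σ v)
        = A0.finComp (finPull930 σ v) r i j := rfl
    have h2 : ((r : Matrix (Fin 2) (Fin 2) (A0.Adl K)) i j).2 v = A0.finComp v r i j := rfl
    rw [h1, h2, hfin (finPull930 σ v), hfin v, Matrix.one_apply, Matrix.one_apply]
    split_ifs <;> simp

/-! ## `T5.AutPreserves` -/

section preserves

variable [LocallyCompactSpace (A0.G K)] [SecondCountableTopology (A0.G K)]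

attribute [local instance] Fermat.Agent.LT.T5.instMeasurableSpaceG

theorem measure_preimage_glAdeleEquiv930 (σ : K ≃+* K) (μ : Measure (A0.G K))
    [μ.IsHaarMeasure] (A : Set (A0.G K)) :
    μ (glAdeleEquiv930 σ ⁻¹' A) = μ A := by
  have h := mulEquivHaarChar_smul_preimage μ (X := A) (glAdeleCME930 σ)
  rw [mulEquivHaarChar_glAdeleCME930, one_smul] at h
  exact h

/-- **The adapter AUT-PRESERVES.**  For every automorphism `σ` of the number field `K`, every
`σ`-stable level `𝔫`, every Haar measure `μ` of `GL₂(𝔸_K)` and every ray generator `r`, the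
adelic automorphism `adelicAut930 σ` preserves the frame of T5. -/
theorem autPreserves930 (σ : K ≃+* K) (𝔫 : Ideal (𝓞 K))
    (h𝔫 : 𝔫.map (RingOfIntegers.mapRingEquiv σ) = 𝔫) (μ : Measure (A0.G K))
    (hμ : μ.IsHaarMeasure) (r : A0.G K) (hr : T5.IsRayGen r) :
    T5.AutPreserves (adelicAut930 σ) 𝔫 μ r where
  left_inverse g := by
    rw [adelicAut930_onG, adelicAut930_onGinv]
    exact glAdeleEquiv930_symm_apply_apply σ g
  right_inverse g := by
    rw [adelicAut930_onG, adelicAut930_onGinv]
    exact glAdeleEquiv930_apply_symm_apply σ g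
  rat γ := by
    rw [adelicAut930_onG]
    exact glAdeleEquiv930_map_algebraMap σ γ
  cont := by
    have : ((adelicAut930 σ).onG : A0.G K → A0.G K) = glAdeleEquiv930 σ :=
      funext fun g => adelicAut930_onG σ g
    rw [this]
    exact continuous_glAdeleEquiv930 σ
  measure A _ := by
    have : ((adelicAut930 σ).onG : A0.G K → A0.G K) = glAdeleEquiv930 σ :=
      funext fun g => adelicAut930_onG σ g
    rw [this]
    exact measure_preimage_glAdeleEquiv930 σ μ A
  ray := by
    rw [adelicAut930_onG]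
    exact glAdeleEquiv930_rayGen σ r hr
  slab g := by
    rw [adelicAut930_onG]
    exact (mem_slab_glAdeleEquiv930 σ g).symm
  level u := by
    rw [adelicAut930_onG]
    have := inLevelGroup_glAdeleEquiv930 σ 𝔫 u
    rw [h𝔫] at this
    exact this.symm
  arch k := by
    rw [adelicAut930_onG]
    constructor
    · rintro ⟨w, hw⟩
      refine ⟨infPull930 σ.symm w, ?_⟩
      rw [isArchCompact_glAdeleEquiv930, infPull930_symm]
      exact hw
    · rintro ⟨w, hw⟩
      exact ⟨infPull930 σ w, (isArchCompact_glAdeleEquiv930 σ w k).1 hw⟩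

end preserves

/-- `autPreserves930` with the topological hypotheses as explicit arguments (the two components of
`T1.LocCompC K` which are used). -/
theorem autPreserves930' (hLC : LocallyCompactSpace (A0.G K))
    (hSC : SecondCountableTopology (A0.G K)) (σ : K ≃+* K) (𝔫 : Ideal (𝓞 K))
    (h𝔫 : 𝔫.map (RingOfIntegers.mapRingEquiv σ) = 𝔫)
    (μ : @Measure (A0.G K) Fermat.Agent.LT.T5.instMeasurableSpaceG)
    (hμ : @Measure.IsHaarMeasure (A0.G K) _ _ Fermat.Agent.LT.T5.instMeasurableSpaceG μ)
    (r : A0.G K) (hr : T5.IsRayGen r) :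
    T5.AutPreserves (adelicAut930 σ) 𝔫 μ r :=
  autPreserves930 σ 𝔫 h𝔫 μ hμ r hr

/-- **`T1_AutExists` (existence form).**  Every automorphism of `K` has an adelic extension which
preserves every frame of T5 of `σ`-stable level. -/
theorem exists_adelicAut930 (hLC : LocallyCompactSpace (A0.G K))
    (hSC : SecondCountableTopology (A0.G K)) (σ : K ≃+* K) :
    ∃ s : T5.AdelicAut K, s.σ = σ ∧
      ∀ 𝔫 : Ideal (𝓞 K), 𝔫.map (RingOfIntegers.mapRingEquiv σ) = 𝔫 →
        ∀ (μ : @Measure (A0.G K) Fermat.Agent.LT.T5.instMeasurableSpaceG),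
          @Measure.IsHaarMeasure (A0.G K) _ _ Fermat.Agent.LT.T5.instMeasurableSpaceG μ →
          ∀ r : A0.G K, T5.IsRayGen r → T5.AutPreserves s 𝔫 μ r :=
  ⟨adelicAut930 σ, rfl, fun 𝔫 h𝔫 μ hμ r hr => autPreserves930' hLC hSC σ 𝔫 h𝔫 μ hμ r hr⟩

end Fermat.Agent.LT.T1.H930
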